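import Fermat.Agent.DeligneSerre.Cheb.LSeries
import Fermat.Agent.Density.Frobenius

/-!
# Crossing with the `m`-th cyclotomic field

Let `F/ℚ` be a Galois number field containing a primitive `m`-th root of unity `ζ`, and `r` a map
of its Galois group which together with the action on `ζ` is an isomorphism onto `G × (ℤ/m)ˣ`.
For `s ∈ G` and a square `c` whose order is a multiple of the order of `s`, the primes whose
Frobenius is `(s, c)` or `(s⁻¹, c⁻¹)` (after squaring the second coordinate) are counted.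
-/

set_option autoImplicit false

noncomputable section

namespace Fermat.Agent.DeligneSerre.Cheb

open NumberField Filter Topology
open Fermat.Agent.Density
open scoped Classical Pointwise

/-- The contribution of finitely many primes is bounded. -/
theorem exists_abs_good_sub_le (K : Type*) [Field K] [NumberField K] {B : ℕ} (hB : B ≠ 0) :
    ∃ C : ℝ, ∀ s : ℝ, 1 < s → ∀ f : Nat.Primes → ℝ, (∀ p, |f p| ≤ 1) →
      |(∑' p : Nat.Primes, if (p : ℕ) ∣ B then 0 else primeTerm K s p * f p) -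
        ∑' p : Nat.Primes, primeTerm K s p * f p| ≤ C := by
  have hfin : {p : Nat.Primes | (p : ℕ) ∣ B}.Finite :=
    ((Set.finite_le_nat B).preimage Subtype.val_injective.injOn).subset
      fun p hp => Nat.le_of_dvd (Nat.pos_of_ne_zero hB) hp
  refine ⟨hfin.toFinset.card * Module.finrank ℚ K, fun s hs f hf => ?_⟩
  have hle : ∀ p, ‖primeTerm K s p * f p‖ ≤ primeTerm K s p := fun p => by
    rw [Real.norm_eq_abs, abs_mul, abs_of_nonneg (primeTerm_nonneg s p)]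
    exact mul_le_of_le_one_right (primeTerm_nonneg s p) (hf p)
  have hsum : Summable fun p => primeTerm K s p * f p :=
    Summable.of_norm_bounded (summable_primeTerm hs) hle
  have hsum' : Summable fun p : Nat.Primes => if (p : ℕ) ∣ B then 0 else primeTerm K s p * f p :=
    Summable.of_norm_bounded (summable_primeTerm hs) fun p => by
      split_ifs
      · simpa using primeTerm_nonneg (K := K) s p
      · exact hle p
  rw [← Summable.tsum_sub hsum' hsum, tsum_eq_sum (s := hfin.toFinset) fun p hp => by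
    rw [Set.Finite.mem_toFinset, Set.mem_ofPred_eq] at hp
    rw [if_neg hp, sub_self]]
  refine (Finset.abs_sum_le_sum_abs _ _).trans ((Finset.sum_le_card_nsmul _ _
    (Module.finrank ℚ K : ℝ) fun p hp => ?_).trans_eq (nsmul_eq_mul _ _))
  rw [Set.Finite.mem_toFinset, Set.mem_ofPred_eq] at hp
  rw [if_pos hp, zero_sub, abs_neg]
  refine ((Real.norm_eq_abs _).symm.le.trans (hle p)).trans ?_
  refine (mul_le_of_le_one_right (Nat.cast_nonneg _) ?_).trans
    (by exact_mod_cast normCount_prime_le (K := K) p.2)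
  exact Real.rpow_le_one_of_one_le_of_nonpos (by exact_mod_cast p.2.one_le) (by linarith)

variable {F : Type*} [Field F] [NumberField F] {m : ℕ} [Fact m.Prime]

/-- Frobenius acts on roots of unity by the `p`-th power. -/
theorem autToPow_frobAt {ζ : F} (hζ : IsPrimitiveRoot ζ m) {Q : Ideal (𝓞 F)} (hQ : Q.IsPrime)
    {p : ℕ} (hp : p.Prime) (hpm : p ≠ m) (hmem : (p : 𝓞 F) ∈ Q) {g : F ≃ₐ[ℚ] F}
    (hg : FrobAt Q p g) : ((hζ.autToPow ℚ g : (ZMod m)ˣ) : ZMod m) = (p : ZMod m) := by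
  have hm : m.Prime := Fact.out
  set η : F := g ζ * (ζ ^ p)⁻¹ with hη
  have hζ0 : ζ ≠ 0 := hζ.ne_zero hm.ne_zero
  have hηm : η ^ m = 1 := by
    rw [hη, mul_pow, ← map_pow, hζ.pow_eq_one, map_one, inv_pow, ← pow_mul, mul_comm p m, pow_mul,
      hζ.pow_eq_one]
    simp
  suffices h1 : η = 1 by
    rw [hη, mul_inv_eq_one₀ (pow_ne_zero _ hζ0), ← hζ.autToPow_spec ℚ g,
      ← Nat.mod_add_div p m, pow_add, pow_mul, hζ.pow_eq_one, one_pow, mul_one,
      ← ZMod.val_natCast_of_lt (Nat.mod_lt p hm.pos)] at h1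
    have h2 := hζ.pow_inj (ZMod.val_lt _) (ZMod.val_lt _) h1
    rw [ZMod.val_injective m h2, ZMod.natCast_mod]
  by_contra hne
  let z : 𝓞 F := ⟨ζ, hζ.isIntegral hm.pos⟩
  have hgz : g • z - z ^ p ∈ Q := hg z
  have hzu : IsUnit z := IsUnit.of_pow_eq_one (RingOfIntegers.ext hζ.pow_eq_one) hm.ne_zero
  obtain ⟨w, hw⟩ := hzu.pow p |>.exists_right_inv
  let e : 𝓞 F := g • z * w
  have hec : (e : F) = η := by
    have h1 : (ζ ^ p) * (w : F) = 1 := congrArg (algebraMap (𝓞 F) F) hw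
    change g ζ * (w : F) = η
    rw [hη, eq_inv_of_mul_eq_one_right h1]
  have he1 : e - 1 ∈ Q := by
    have h := Q.mul_mem_right w hgz
    rwa [sub_mul, hw] at h
  have hgeom : ∑ i ∈ Finset.range m, e ^ i = 0 := by
    refine RingOfIntegers.ext ?_
    simp only [map_sum, map_pow, map_zero]
    have h := geom_sum_mul η m
    rw [hηm, sub_self] at h
    rw [show algebraMap (𝓞 F) F e = η from hec]
    exact (mul_eq_zero.mp h).resolve_right (sub_ne_zero.mpr hne)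
  have hterm : ∀ i, e ^ i - 1 ∈ Q := fun i => by
    rw [← geom_sum_mul e i]
    exact Q.mul_mem_left _ he1
  have hmQ : (m : 𝓞 F) ∈ Q := by
    have h := Q.neg_mem (Ideal.sum_mem Q (t := Finset.range m) fun i _ => hterm i)
    simpa [hgeom] using h
  obtain ⟨a, b, hab⟩ := Nat.isCoprime_iff_coprime.2 ((Nat.coprime_primes hp hm).2 hpm)
  apply hQ.ne_top
  rw [Ideal.eq_top_iff_one]
  have h1 : ((a : ℤ) : 𝓞 F) * (p : 𝓞 F) + ((b : ℤ) : 𝓞 F) * (m : 𝓞 F) = 1 := by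
    exact_mod_cast congrArg (fun x : ℤ => (x : 𝓞 F)) hab
  rw [← h1]
  exact add_mem (Q.mul_mem_left _ hmem) (Q.mul_mem_left _ hmQ)

variable [IsGalois ℚ F] {G : Type*} [Group G]

/-- The data of a crossing. -/
structure Crossing (F : Type*) [Field F] [NumberField F] [IsGalois ℚ F] (m : ℕ) [Fact m.Prime]
    (G : Type*) [Group G] where
  /-- a primitive root of unity -/
  ζ : F
  hζ : IsPrimitiveRoot ζ m
  two_lt : 2 < m
  /-- the first coordinate -/
  r : (F ≃ₐ[ℚ] F) →* G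
  inj : ∀ g, r g = 1 → hζ.autToPow ℚ g = 1 → g = 1
  surj : ∀ (s : G) (b : (ZMod m)ˣ), ∃ g, r g = s ∧ hζ.autToPow ℚ g = b
  /-- a number divisible by the bad primes -/
  bad : ℕ
  bad_ne : bad ≠ 0
  m_dvd_bad : m ∣ bad
  /-- a prime over every rational prime -/
  Q : Nat.Primes → Ideal (𝓞 F)
  hQ : ∀ p, (Q p).IsPrime
  hmem : ∀ p : Nat.Primes, ((p : ℕ) : 𝓞 F) ∈ Q p
  hdet : ∀ (p : Nat.Primes), ¬ (p : ℕ) ∣ bad → DeterminedMod (Q p)
  /-- a Frobenius element at it -/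
  Fr : Nat.Primes → (F ≃ₐ[ℚ] F)
  hFr : ∀ p : Nat.Primes, FrobAt (Q p) p (Fr p)

namespace Crossing

variable (D : Crossing F m G)

/-- `g ↦ (r g, (g on ζ)²)`. -/
def phi : (F ≃ₐ[ℚ] F) →* G × (ZMod m)ˣ :=
  D.r.prod ((powMonoidHom 2).comp (D.hζ.autToPow ℚ))

theorem phi_apply (g : F ≃ₐ[ℚ] F) : D.phi g = (D.r g, D.hζ.autToPow ℚ g ^ 2) := rfl

/-- The weight of a set at a prime. -/
def wt (P : (F ≃ₐ[ℚ] F) → Prop) (p : Nat.Primes) : ℕ :=
  Nat.card {g : F ≃ₐ[ℚ] F // P (g * D.Fr p * g⁻¹)}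

/-- The sum of a weight over the good primes. -/
def wsum (w : Nat.Primes → ℝ) (s : ℝ) : ℝ :=
  ∑' p : Nat.Primes, if (p : ℕ) ∣ D.bad then 0 else w p * ((p : ℕ) : ℝ) ^ (-s)

theorem summable_wsum {w : Nat.Primes → ℝ} {M : ℝ} (hw : ∀ p, |w p| ≤ M) {s : ℝ} (hs : 1 < s) :
    Summable fun p : Nat.Primes =>
      if (p : ℕ) ∣ D.bad then 0 else w p * ((p : ℕ) : ℝ) ^ (-s) := by
  refine Summable.of_norm_bounded ((Nat.Primes.summable_rpow.2 (neg_lt_neg hs)).mul_left M)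
    fun p => ?_
  have h0 := Real.rpow_nonneg (Nat.cast_nonneg (α := ℝ) (p : ℕ)) (-s)
  split_ifs
  · simpa using mul_nonneg ((abs_nonneg _).trans (hw p)) h0
  · rw [norm_mul, Real.norm_of_nonneg h0]
    exact mul_le_mul_of_nonneg_right (hw p) h0

theorem wt_le (P : (F ≃ₐ[ℚ] F) → Prop) (p : Nat.Primes) :
    (D.wt P p : ℝ) ≤ Nat.card (F ≃ₐ[ℚ] F) := by
  exact_mod_cast Nat.card_le_card_of_injective _ Subtype.val_injective

theorem autToPow_fr {p : Nat.Primes} (hp : ¬ (p : ℕ) ∣ D.bad) :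
    ((D.hζ.autToPow ℚ (D.Fr p) : (ZMod m)ˣ) : ZMod m) = ((p : ℕ) : ZMod m) :=
  autToPow_frobAt D.hζ (D.hQ p) p.2 (fun h => hp (h ▸ D.m_dvd_bad)) (D.hmem p) (D.hFr p)

theorem sq_conj {p : Nat.Primes} (hp : ¬ (p : ℕ) ∣ D.bad) (g : F ≃ₐ[ℚ] F) :
    (((D.hζ.autToPow ℚ (g * D.Fr p * g⁻¹)) ^ 2 : (ZMod m)ˣ) : ZMod m) =
      ((p : ℕ) : ZMod m) ^ 2 := by
  rw [map_mul, map_mul, map_inv, mul_inv_cancel_comm, Units.val_pow_eq_pow_val, D.autToPow_fr hp]

theorem wt_subgroup (H : Subgroup (F ≃ₐ[ℚ] F)) {p : Nat.Primes} (hp : ¬ (p : ℕ) ∣ D.bad) :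
    D.wt (· ∈ H) p = Nat.card H * normCount (IntermediateField.fixedField H) p :=
  haveI := D.hQ p
  card_conj_mem_eq H p.2 (D.hmem p) (D.hdet p hp) (D.hFr p)

theorem card_kernel : Nat.card D.phi.ker = 2 := by
  have hm : m.Prime := Fact.out
  let f : D.phi.ker → ({1, -1} : Finset (ZMod m)ˣ) := fun g => ⟨D.hζ.autToPow ℚ g.1, by
    have h := congrArg Prod.snd (MonoidHom.mem_ker.1 g.2)
    rw [phi_apply] at h
    have h' := congrArg (fun u : (ZMod m)ˣ => (u : ZMod m)) h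
    simp only [Units.val_pow_eq_pow_val, Prod.snd_one, Units.val_one, sq_eq_one_iff] at h'
    rw [Finset.mem_insert, Finset.mem_singleton]
    exact h'.imp (fun h => Units.ext h) fun h => Units.ext h⟩
  have hf : Function.Bijective f := by
    refine ⟨fun a b h => ?_, fun u => ?_⟩
    · have h' : D.hζ.autToPow ℚ a.1 = D.hζ.autToPow ℚ b.1 := congrArg Subtype.val h
      have ha := congrArg Prod.fst (MonoidHom.mem_ker.1 a.2)
      have hb := congrArg Prod.fst (MonoidHom.mem_ker.1 b.2)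
      simp only [phi_apply, Prod.fst_one] at ha hb
      exact Subtype.ext (inv_mul_eq_one.1 (D.inj _
        (by rw [map_mul, map_inv, ha, hb, inv_one, one_mul])
        (by rw [map_mul, map_inv, h', inv_mul_cancel])))
    · obtain ⟨g, hg1, hg2⟩ := D.surj 1 u.1
      refine ⟨⟨g, MonoidHom.mem_ker.2 ?_⟩, Subtype.ext hg2⟩
      rw [phi_apply, hg1, hg2]
      have h := u.2
      rw [Finset.mem_insert, Finset.mem_singleton] at h
      rcases h with h | h <;> simp [h]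
  rw [Nat.card_eq_of_bijective f hf, Nat.card_eq_finsetCard, Finset.card_pair]
  intro h
  have : Fact (2 < m) := ⟨D.two_lt⟩
  exact ZMod.neg_one_ne_one (congrArg Units.val h).symm

variable (s₀ : G) (c : (ZMod m)ˣ)

/-- The elements over the subgroup generated by `(s₀, c)`. -/
def cyc : Subgroup (F ≃ₐ[ℚ] F) := (Subgroup.zpowers (s₀, c)).comap D.phi

theorem card_cyc (hsq : ∃ b : (ZMod m)ˣ, b ^ 2 = c) (hn : orderOf s₀ ∣ orderOf c) :
    Nat.card (D.cyc s₀ c) = 2 * orderOf c := by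
  obtain ⟨b, rfl⟩ := hsq
  set x : G × (ZMod m)ˣ := (s₀, b ^ 2)
  let f : D.cyc s₀ (b ^ 2) →* Subgroup.zpowers x :=
    (D.phi.comp (D.cyc s₀ (b ^ 2)).subtype).codRestrict _ fun g => g.2
  have hf : Function.Surjective f := by
    rintro ⟨y, k, rfl⟩
    obtain ⟨g, hg1, hg2⟩ := D.surj (s₀ ^ k) (b ^ k)
    have hg : D.phi g = x ^ k := by
      rw [phi_apply, hg1, hg2, Prod.pow_def]
      congr 1
      exact zpow_comm b k 2 |>.trans (by norm_cast)
    exact ⟨⟨g, show D.phi g ∈ Subgroup.zpowers x from hg ▸ ⟨k, rfl⟩⟩, Subtype.ext hg⟩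
  have hker : Nat.card f.ker = 2 := by
    refine Eq.trans ?_ D.card_kernel
    exact Nat.card_congr
      { toFun := fun g => ⟨g.1.1, congrArg Subtype.val (MonoidHom.mem_ker.1 g.2)⟩
        invFun := fun g => ⟨⟨g.1, show D.phi g.1 ∈ Subgroup.zpowers x from
          (MonoidHom.mem_ker.1 g.2).symm ▸ one_mem _⟩,
          MonoidHom.mem_ker.2 (Subtype.ext (MonoidHom.mem_ker.1 g.2))⟩
        left_inv := fun g => rfl
        right_inv := fun g => rfl }
  rw [Subgroup.card_eq_card_quotient_mul_card_subgroup f.ker,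
    Nat.card_congr (QuotientGroup.quotientKerEquivOfSurjective f hf).toEquiv, hker,
    Nat.card_zpowers, Prod.orderOf, Nat.lcm_eq_right hn, mul_comm]

theorem phi_eq_of_mem (hn : orderOf s₀ ∣ orderOf c) {g : F ≃ₐ[ℚ] F} (hg : g ∈ D.cyc s₀ c)
    {j : ℤ} (h : D.hζ.autToPow ℚ g ^ 2 = c ^ j) : D.phi g = (s₀ ^ j, c ^ j) := by
  obtain ⟨k, hk⟩ := Subgroup.mem_zpowers_iff.1 hg
  rw [Prod.pow_def] at hk
  have h1 : c ^ k = c ^ j := (congrArg Prod.snd hk).trans h
  have h2 : s₀ ^ k = s₀ ^ j := orderOf_dvd_sub_iff_zpow_eq_zpow.1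
    ((Int.natCast_dvd_natCast.2 hn).trans (orderOf_dvd_sub_iff_zpow_eq_zpow.2 h1))
  rw [← hk, h1, h2]

theorem wt_phi (hn : orderOf s₀ ∣ orderOf c) (j : ℤ) {p : Nat.Primes} (hp : ¬ (p : ℕ) ∣ D.bad) :
    (D.wt (fun g => D.phi g = (s₀ ^ j, c ^ j)) p : ℝ) =
      (D.wt (· ∈ D.cyc s₀ c) p : ℝ) *
        (if ((p : ℕ) : ZMod m) ^ 2 = ((c ^ j : (ZMod m)ˣ) : ZMod m) then 1 else 0) := by
  split_ifs with h
  · rw [mul_one]
    congr 1
    refine Nat.card_congr (Equiv.subtypeEquivRight fun g => ⟨fun hg => ?_, fun hg => ?_⟩)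
    · show D.phi _ ∈ Subgroup.zpowers (s₀, c)
      rw [hg]
      exact ⟨j, rfl⟩
    · exact D.phi_eq_of_mem s₀ c hn hg (Units.ext ((D.sq_conj hp g).trans h))
  · rw [mul_zero, Nat.cast_eq_zero, wt]
    have : IsEmpty {g : F ≃ₐ[ℚ] F // D.phi (g * D.Fr p * g⁻¹) = (s₀ ^ j, c ^ j)} := ⟨fun g =>
      h ((D.sq_conj hp g.1).symm.trans (congrArg Units.val (congrArg Prod.snd g.2)))⟩
    exact Nat.card_of_isEmpty

/-- The fixed field of the cyclic subgroup. -/
abbrev fld : IntermediateField ℚ F := IntermediateField.fixedField (D.cyc s₀ c)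

/-- The square of a Dirichlet character. -/
def sqChar (ψ : DirichletCharacter ℂ m) : MulChar (ZMod m) ℂ := ψ * ψ

theorem sqChar_apply (ψ : DirichletCharacter ℂ m) (x : ZMod m) : sqChar ψ x = ψ (x ^ 2) := by
  rw [sqChar, MulChar.mul_apply, sq, map_mul]

theorem sqChar_even (ψ : DirichletCharacter ℂ m) : sqChar ψ (-1) = 1 := by
  rw [sqChar_apply, neg_one_sq, map_one]

/-- The sum of `#{g : g Fr g⁻¹ ∈ ⟨(s₀, c)⟩} Re ψ(p²)`. -/
def S (ψ : DirichletCharacter ℂ m) (s : ℝ) : ℝ :=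
  D.wsum (fun p => (D.wt (· ∈ D.cyc s₀ c) p : ℝ) * (ψ (((p : ℕ) : ZMod m) ^ 2)).re) s

theorem summable_S (ψ : DirichletCharacter ℂ m) {s : ℝ} (hs : 1 < s) :
    Summable fun p : Nat.Primes => if (p : ℕ) ∣ D.bad then 0
      else (D.wt (· ∈ D.cyc s₀ c) p : ℝ) * (ψ (((p : ℕ) : ZMod m) ^ 2)).re *
        ((p : ℕ) : ℝ) ^ (-s) :=
  D.summable_wsum (M := Nat.card (F ≃ₐ[ℚ] F)) (fun p => by
    rw [abs_mul, Nat.abs_cast]
    exact (mul_le_of_le_one_right (Nat.cast_nonneg _) (abs_re_apply_le _ _)).trans (D.wt_le _ p)) hs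

theorem S_eq (ψ : DirichletCharacter ℂ m) (s : ℝ) :
    D.S s₀ c ψ s = (Nat.card (D.cyc s₀ c) : ℝ) * ∑' p : Nat.Primes,
      if (p : ℕ) ∣ D.bad then 0 else primeTerm (D.fld s₀ c) s p *
        (sqChar ψ ((p : ℕ) : ZMod m)).re := by
  rw [S, wsum, ← tsum_mul_left]
  refine tsum_congr fun p => ?_
  split_ifs with hp
  · rw [mul_zero]
  · rw [D.wt_subgroup _ hp, sqChar_apply, primeTerm, Nat.cast_mul]
    ring

theorem S_of_eq_one {ψ : DirichletCharacter ℂ m} (hψ : ψ (c : ZMod m) = 1) :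
    ∃ C : ℝ, ∀ᶠ s in 𝓝[>] (1 : ℝ),
      |D.S s₀ c ψ s - (Nat.card (D.cyc s₀ c) : ℝ) * (-Real.log (s - 1))| ≤ C := by
  obtain ⟨C, hC⟩ := eventually_abs_good_primeTerm_le D.bad D.bad_ne (D.fld s₀ c)
  refine ⟨(Nat.card (D.cyc s₀ c) : ℝ) * C, ?_⟩
  filter_upwards [hC] with s hs
  have : D.S s₀ c ψ s = (Nat.card (D.cyc s₀ c) : ℝ) *
      ∑' p : Nat.Primes, if (p : ℕ) ∣ D.bad then 0 else primeTerm (D.fld s₀ c) s p := by
    rw [D.S_eq]
    congr 1
    refine tsum_congr fun p => ?_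
    split_ifs with hp
    · rfl
    by_cases h0 : normCount (D.fld s₀ c) p = 0
    · simp [primeTerm, h0]
    have hw : D.wt (· ∈ D.cyc s₀ c) p ≠ 0 := by
      rw [D.wt_subgroup _ hp]
      exact mul_ne_zero Nat.card_pos.ne' h0
    obtain ⟨g, hg⟩ := (Nat.card_ne_zero.1 hw).1
    obtain ⟨k, hk⟩ := Subgroup.mem_zpowers_iff.1 hg
    have h1 : c ^ k = D.hζ.autToPow ℚ (g * D.Fr p * g⁻¹) ^ 2 := by
      rw [Prod.pow_def] at hk
      exact congrArg Prod.snd hk
    have h2 : sqChar ψ ((p : ℕ) : ZMod m) = 1 := by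
      rw [sqChar_apply, ← D.sq_conj hp g, ← h1, ← MulChar.coe_toUnitHom]
      rw [← MulChar.coe_toUnitHom, Units.val_eq_one] at hψ
      rw [map_zpow, hψ, one_zpow, Units.val_one]
    rw [h2, Complex.one_re, mul_one]
  rw [this, ← mul_sub, abs_mul, Nat.abs_cast, sub_neg_eq_add]
  exact mul_le_mul_of_nonneg_left hs (Nat.cast_nonneg _)

theorem S_le (hsq : ∃ b : (ZMod m)ˣ, b ^ 2 = c) {ψ : DirichletCharacter ℂ m}
    (hψ : ψ (c : ZMod m) ≠ 1) :
    ∃ C : ℝ, ∀ᶠ s in 𝓝[>] (1 : ℝ), D.S s₀ c ψ s ≤ C := by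
  obtain ⟨b, hb⟩ := hsq
  obtain ⟨g₀, hg1, hg2⟩ := D.surj s₀ b
  have hphi : D.phi g₀ = (s₀, c) := by rw [phi_apply, hg1, hg2, hb]
  have hfin : {n : ℕ | n.Prime ∧ n ∣ D.bad}.Finite :=
    (Set.finite_le_nat D.bad).subset fun n hn => Nat.le_of_dvd (Nat.pos_of_ne_zero D.bad_ne) hn.2
  obtain ⟨ℓ, hℓ, hℓS, hQ⟩ := exists_prime_forall_frobAt g₀ hfin.toFinset
  set p : Nat.Primes := ⟨ℓ, hℓ⟩
  have hp : ¬ (p : ℕ) ∣ D.bad := fun h => hℓS (hfin.mem_toFinset.2 ⟨hℓ, h⟩)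
  obtain ⟨g, hg⟩ := (hQ (D.Q p) (D.hQ p) (D.hmem p)).2 (D.Fr p) (D.hFr p)
  have hmem : g * D.Fr p * g⁻¹ ∈ D.cyc s₀ c := by
    have : g * D.Fr p * g⁻¹ ∈ Subgroup.zpowers g₀ := hg ▸ Subgroup.mem_zpowers _
    obtain ⟨k, hk⟩ := Subgroup.mem_zpowers_iff.1 this
    show D.phi _ ∈ Subgroup.zpowers (s₀, c)
    rw [← hk, map_zpow, hphi]
    exact ⟨k, rfl⟩
  have hP := absNorm_under_eq (D.cyc s₀ c) (Q := g • D.Q p) (hQ := by
      have := D.hQ p; infer_instance) p.2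
    (natCast_mem_smul (D.hmem p) g) ((D.hFr p).conj g) hmem
  set P := (g • D.Q p).under (𝓞 (D.fld s₀ c))
  have hℓm : IsUnit ((ℓ : ℕ) : ZMod m) := by
    rw [← show ((D.hζ.autToPow ℚ (D.Fr p) : (ZMod m)ˣ) : ZMod m) = ((ℓ : ℕ) : ZMod m) from
      D.autToPow_fr hp]
    exact Units.isUnit _
  have hval : sqChar ψ (Ideal.absNorm P : ZMod m) ≠ 1 := by
    rw [hP, sqChar_apply]
    obtain ⟨j, hj⟩ := Subgroup.mem_zpowers_iff.1
      (hg.symm ▸ Subgroup.mem_zpowers g₀ : g₀ ∈ Subgroup.zpowers (g * D.Fr p * g⁻¹))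
    intro h1
    apply hψ
    have h3 : c = (D.hζ.autToPow ℚ (g * D.Fr p * g⁻¹) ^ 2) ^ j := by
      have h4 := congrArg Prod.snd hphi
      simp only [phi_apply] at h4
      rw [← h4, ← hj, map_zpow, ← zpow_natCast, ← zpow_natCast, ← zpow_mul, ← zpow_mul, mul_comm]
    rw [← D.sq_conj hp g, ← MulChar.coe_toUnitHom, Units.val_eq_one] at h1
    rw [← MulChar.coe_toUnitHom, Units.val_eq_one, h3, map_zpow, h1, one_zpow]
  have hval0 : sqChar ψ (Ideal.absNorm P : ZMod m) ≠ 0 := by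
    rw [hP]
    exact (hℓm.map (sqChar ψ)).ne_zero
  obtain ⟨C, hC⟩ := eventually_twistSum_le (sqChar ψ) (sqChar_even ψ) P
    (isPrime_of_absNorm_eq_prime p.2 hP) hval0 hval
  obtain ⟨C', hC'⟩ := exists_abs_good_sub_le (D.fld s₀ c) D.bad_ne
  refine ⟨(Nat.card (D.cyc s₀ c) : ℝ) * (C + C'), ?_⟩
  filter_upwards [hC, self_mem_nhdsWithin] with s hs hs1
  rw [D.S_eq]
  refine mul_le_mul_of_nonneg_left ?_ (Nat.cast_nonneg _)
  have h := hC' s hs1 (fun q : Nat.Primes => (sqChar ψ ((q : ℕ) : ZMod m)).re)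
    fun q => abs_re_apply_le _ _
  unfold twistSum at hs
  linarith [(abs_le.1 h).2]

theorem orth (a : (ZMod m)ˣ) (x : ZMod m) :
    ∑ ψ : DirichletCharacter ℂ m, (ψ (a : ZMod m)).re * (ψ x).re =
      ((m : ℝ) - 1) / 2 * ((if x = (a : ZMod m) then 1 else 0) +
        (if x = ((a⁻¹ : (ZMod m)ˣ) : ZMod m) then 1 else 0)) := by
  have hm : m.Prime := Fact.out
  have key : ∀ u : (ZMod m)ˣ,
    (∑ ψ : DirichletCharacter ℂ m, ψ ((u⁻¹ : (ZMod m)ˣ) : ZMod m) * ψ x).re =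
      ((m : ℝ) - 1) * (if x = (u : ZMod m) then 1 else 0) := fun u => by
    rw [show (∑ ψ : DirichletCharacter ℂ m, ψ ((u⁻¹ : (ZMod m)ˣ) : ZMod m) * ψ x) =
      ∑ ψ : DirichletCharacter ℂ m, ψ (u : ZMod m)⁻¹ * ψ x from
        Finset.sum_congr rfl fun ψ _ => by rw [ZMod.inv_coe_unit],
      DirichletCharacter.sum_char_inv_mul_char_eq ℂ u.isUnit x, Nat.totient_prime hm]
    rcases eq_or_ne x (u : ZMod m) with h | h
    · rw [if_pos h.symm, if_pos h, mul_one, Complex.natCast_re, Nat.cast_sub hm.one_le,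
        Nat.cast_one]
    · rw [if_neg (Ne.symm h), if_neg h, mul_zero, Complex.zero_re]
  have h1 := key a
  have h2 := key a⁻¹
  rw [inv_inv] at h2
  rw [div_mul_eq_mul_div, eq_div_iff two_ne_zero, mul_add, ← h1, ← h2, ← Complex.add_re,
    ← Finset.sum_add_distrib, Complex.re_sum, Finset.sum_mul]
  refine Finset.sum_congr rfl fun ψ _ => ?_
  have hconj : ψ ((a⁻¹ : (ZMod m)ˣ) : ZMod m) = starRingEnd ℂ (ψ (a : ZMod m)) := by
    have hu : IsUnit (a : ZMod m) := a.isUnit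
    have hnorm : ‖ψ (a : ZMod m)‖ = 1 := by
      refine Complex.norm_eq_one_of_pow_eq_one (n := Fintype.card (ZMod m)ˣ) ?_ Fintype.card_ne_zero
      rw [← map_pow, ← Units.val_pow_eq_pow_val, pow_card_eq_one, Units.val_one, map_one]
    rw [← Complex.inv_eq_conj hnorm]
    refine eq_inv_of_mul_eq_one_left ?_
    rw [← map_mul, Units.inv_mul, map_one]
  rw [hconj, Complex.add_re, Complex.mul_re, Complex.mul_re, Complex.conj_re, Complex.conj_im]
  ring

theorem card_trivial (_hm2 : 2 < m) :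
    ((Finset.univ.filter fun ψ : DirichletCharacter ℂ m => ψ (c : ZMod m) = 1).card : ℝ) *
      (orderOf c : ℝ) = (m : ℝ) - 1 := by
  have hm : m.Prime := Fact.out
  set e := orderOf c
  have hinner : ∀ ψ : DirichletCharacter ℂ m,
    ∑ k ∈ Finset.range e, ψ ((c ^ k : (ZMod m)ˣ) : ZMod m) =
      if ψ (c : ZMod m) = 1 then (e : ℂ) else 0 := fun ψ => by
    simp only [Units.val_pow_eq_pow_val, map_pow]
    split_ifs with h
    · simp [h]
    · rw [geom_sum_eq h, ← map_pow, ← Units.val_pow_eq_pow_val, pow_orderOf_eq_one, Units.val_one,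
        map_one, sub_self, zero_div]
  have h : (∑ ψ : DirichletCharacter ℂ m, ∑ k ∈ Finset.range e,
      ψ ((c ^ k : (ZMod m)ˣ) : ZMod m)) = ((m - 1 : ℕ) : ℂ) := by
    rw [Finset.sum_comm, Finset.sum_eq_single 0]
    · rw [DirichletCharacter.sum_characters_eq ℂ, pow_zero, Units.val_one, if_pos rfl,
        Nat.totient_prime hm]
    · intro k hk hk0
      rw [DirichletCharacter.sum_characters_eq ℂ, if_neg]
      rw [Units.val_eq_one]
      exact pow_ne_one_of_lt_orderOf hk0 (Finset.mem_range.1 hk)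
    · exact fun h => absurd (Finset.mem_range.2 (orderOf_pos c)) h
  simp only [hinner] at h
  rw [Finset.sum_ite, Finset.sum_const_zero, add_zero, Finset.sum_const, nsmul_eq_mul] at h
  have h2 : (Finset.univ.filter fun ψ : DirichletCharacter ℂ m => ψ (c : ZMod m) = 1).card * e =
      m - 1 := by exact_mod_cast h
  rw [← Nat.cast_mul, h2, Nat.cast_sub hm.one_le, Nat.cast_one]

/-- **The count for one pair.** -/
theorem exists_pair_count (hsq : ∃ b : (ZMod m)ˣ, b ^ 2 = c) (hn : orderOf s₀ ∣ orderOf c) :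
    ∃ C : ℝ, ∀ᶠ s in 𝓝[>] (1 : ℝ),
      4 * (-Real.log (s - 1)) - C ≤ D.wsum (fun p => (D.wt (fun g => D.phi g = (s₀, c)) p : ℝ) +
        (D.wt (fun g => D.phi g = (s₀⁻¹, c⁻¹)) p : ℝ)) s := by
  have hm : m.Prime := Fact.out
  set triv := Finset.univ.filter fun ψ : DirichletCharacter ℂ m => ψ (c : ZMod m) = 1
  set T : ℝ := (triv.card : ℝ)
  set e : ℝ := (orderOf c : ℝ)
  have hT : T * e = (m : ℝ) - 1 := card_trivial c D.two_lt
  have hcard : (Nat.card (D.cyc s₀ c) : ℝ) = 2 * e := by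
    rw [D.card_cyc s₀ c hsq hn]; push_cast; rfl
  have htriv : ∀ ψ, ∃ C : ℝ, ψ ∈ triv → ∀ᶠ s in 𝓝[>] (1 : ℝ),
      |D.S s₀ c ψ s - (Nat.card (D.cyc s₀ c) : ℝ) * (-Real.log (s - 1))| ≤ C := fun ψ => by
    by_cases h : ψ ∈ triv
    · obtain ⟨C, hC⟩ := D.S_of_eq_one s₀ c (Finset.mem_filter.1 h).2
      exact ⟨C, fun _ => hC⟩
    · exact ⟨0, fun h' => absurd h' h⟩
  have hnon : ∀ ψ, ∃ C : ℝ, ψ ∉ triv → ∀ᶠ s in 𝓝[>] (1 : ℝ), D.S s₀ c ψ s ≤ C := fun ψ => by
    by_cases h : ψ ∈ triv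
    · exact ⟨0, fun h' => absurd h h'⟩
    · obtain ⟨C, hC⟩ := D.S_le s₀ c hsq (ψ := ψ)
        (fun h1 => h (Finset.mem_filter.2 ⟨Finset.mem_univ _, h1⟩))
      exact ⟨C, fun _ => hC⟩
  choose Ct hCt using htriv
  choose Cn hCn using hnon
  obtain ⟨C₁, hC₁⟩ := eventually_abs_good_primeTerm_le D.bad D.bad_ne
    (IntermediateField.fixedField D.phi.ker)
  set A : ℝ := (∑ ψ ∈ triv, |Ct ψ|) + (∑ ψ ∈ trivᶜ, |Cn ψ|) + ((m : ℝ) - 1) * (2 * |C₁|)
  refine ⟨2 / ((m : ℝ) - 1) * ((∑ ψ ∈ triv, |Ct ψ|) + ∑ ψ ∈ trivᶜ, (A + |Cn ψ|)), ?_⟩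
  filter_upwards [hC₁, (Filter.eventually_all_finset triv).2 fun ψ hψ => hCt ψ hψ,
    (Filter.eventually_all_finset trivᶜ).2 fun ψ hψ => hCn ψ (Finset.mem_compl.1 hψ),
    Ioo_mem_nhdsGT (one_lt_two (α := ℝ))] with s h1 h2 h3 hs12
  have hs : 1 < s := hs12.1
  set L : ℝ := -Real.log (s - 1)
  set S' : DirichletCharacter ℂ m → ℝ := fun ψ => D.S s₀ c ψ s
  have hm1 : (0 : ℝ) < (m : ℝ) - 1 := by
    have : (1 : ℝ) < (m : ℝ) := by exact_mod_cast hm.one_lt
    linarith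
  -- the total
  have htot : ∑ ψ, S' ψ = ((m : ℝ) - 1) * (2 * (∑' p : Nat.Primes, if (p : ℕ) ∣ D.bad then 0 else
      primeTerm (IntermediateField.fixedField D.phi.ker) s p)) := by
    simp only [S', S, wsum]
    rw [← Summable.tsum_finsetSum fun ψ _ => D.summable_S s₀ c ψ hs, ← mul_assoc, ← tsum_mul_left]
    refine tsum_congr fun p => ?_
    split_ifs with hp
    · simp
    have hker : (D.wt (fun g => D.phi g = (s₀ ^ (0 : ℤ), c ^ (0 : ℤ))) p : ℝ) =
        2 * (normCount (IntermediateField.fixedField D.phi.ker) p : ℝ) := by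
      simp only [zpow_zero]
      rw [show D.wt (fun g => D.phi g = (1, 1)) p = D.wt (· ∈ D.phi.ker) p from
        congrArg Nat.card rfl, D.wt_subgroup _ hp, D.card_kernel]
      push_cast
      rfl
    rw [D.wt_phi s₀ c hn 0 hp, zpow_zero] at hker
    have ho := orth (1 : (ZMod m)ˣ) (((p : ℕ) : ZMod m) ^ 2)
    simp only [Units.val_one, map_one, Complex.one_re, one_mul, inv_one] at ho
    rw [← Finset.sum_mul, ← Finset.mul_sum, ho, primeTerm]
    linear_combination (((m : ℝ) - 1) * ((p : ℕ) : ℝ) ^ (-s)) * hker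
  -- the weights
  have hmain : D.wsum (fun p => (D.wt (fun g => D.phi g = (s₀, c)) p : ℝ) +
      (D.wt (fun g => D.phi g = (s₀⁻¹, c⁻¹)) p : ℝ)) s =
      2 / ((m : ℝ) - 1) * ∑ ψ, (ψ (c : ZMod m)).re * S' ψ := by
    simp only [S', S, wsum, ← tsum_mul_left]
    rw [← Summable.tsum_finsetSum fun ψ _ => (D.summable_S s₀ c ψ hs).mul_left _, ← tsum_mul_left]
    refine tsum_congr fun p => ?_
    split_ifs with hp
    · simp
    have e1 := D.wt_phi s₀ c hn 1 hp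
    have e2 := D.wt_phi s₀ c hn (-1) hp
    simp only [zpow_one, zpow_neg] at e1 e2
    rw [e1, e2]
    have ho := orth c (((p : ℕ) : ZMod m) ^ 2)
    calc _ = (D.wt (· ∈ D.cyc s₀ c) p : ℝ) * ((p : ℕ) : ℝ) ^ (-s) *
          (2 / ((m : ℝ) - 1) * ∑ ψ : DirichletCharacter ℂ m,
            (ψ (c : ZMod m)).re * (ψ (((p : ℕ) : ZMod m) ^ 2)).re) := by
          have h21 : 2 / ((m : ℝ) - 1) * (((m : ℝ) - 1) / 2) = 1 := by field_simp
          rw [ho, ← mul_assoc (2 / ((m : ℝ) - 1)), h21, one_mul]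
          ring
      _ = _ := by
          rw [Finset.mul_sum, Finset.mul_sum, Finset.mul_sum]
          exact Finset.sum_congr rfl fun ψ _ => by ring
  rw [hmain, ← Finset.sum_add_sum_compl triv]
  rw [hcard] at h2
  have ht : T * (2 * e * L) - ∑ ψ ∈ triv, |Ct ψ| ≤ ∑ ψ ∈ triv, (ψ (c : ZMod m)).re * S' ψ := by
    simp only [T, ← nsmul_eq_mul, ← Finset.sum_const, ← Finset.sum_sub_distrib]
    refine Finset.sum_le_sum fun ψ hψ => ?_
    rw [(Finset.mem_filter.1 hψ).2, Complex.one_re, one_mul]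
    linarith [(abs_le.1 (h2 ψ hψ)).1, le_abs_self (Ct ψ)]
  -- a nontrivial sum is bounded below by the others
  have hlow : ∀ ψ ∈ trivᶜ, -A ≤ S' ψ := by
    intro ψ hψ
    have h4 : ∑ χ ∈ trivᶜ.erase ψ, S' χ ≤ ∑ χ ∈ trivᶜ, |Cn χ| :=
      le_trans (Finset.sum_le_sum fun χ hχ =>
        (h3 χ (Finset.mem_of_mem_erase hχ)).trans (le_abs_self _))
        (Finset.sum_le_sum_of_subset_of_nonneg (Finset.erase_subset _ _) fun χ _ _ => abs_nonneg _)
    have h5 : ∑ χ ∈ triv, S' χ ≤ T * (2 * e * L) + ∑ χ ∈ triv, |Ct χ| := by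
      simp only [T, ← nsmul_eq_mul, ← Finset.sum_const, ← Finset.sum_add_distrib]
      exact Finset.sum_le_sum fun χ hχ => by linarith [(abs_le.1 (h2 χ hχ)).2, le_abs_self (Ct χ)]
    have h6 := Finset.sum_add_sum_compl triv S'
    rw [htot, ← Finset.add_sum_erase _ _ hψ] at h6
    have h7 : ((m : ℝ) - 1) * (2 * (L - |C₁|)) ≤ ((m : ℝ) - 1) * (2 *
        (∑' p : Nat.Primes, if (p : ℕ) ∣ D.bad then 0 else
          primeTerm (IntermediateField.fixedField D.phi.ker) s p)) :=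
      mul_le_mul_of_nonneg_left (by linarith [(abs_le.1 h1).1, le_abs_self C₁]) hm1.le
    have h8 : T * (2 * e * L) = ((m : ℝ) - 1) * (2 * L) := by rw [← hT]; ring
    simp only [A]
    linarith
  have hc : -(∑ ψ ∈ trivᶜ, (A + |Cn ψ|)) ≤ ∑ ψ ∈ trivᶜ, (ψ (c : ZMod m)).re * S' ψ := by
    rw [← Finset.sum_neg_distrib]
    refine Finset.sum_le_sum fun ψ hψ => neg_le_of_abs_le ?_
    have hA := hlow ψ hψ
    have hA0 : 0 ≤ A := by
      have h9 : 0 ≤ ((m : ℝ) - 1) * (2 * |C₁|) := by positivity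
      have h10 : 0 ≤ ∑ ψ ∈ triv, |Ct ψ| := Finset.sum_nonneg fun _ _ => abs_nonneg _
      have h11 : 0 ≤ ∑ ψ ∈ trivᶜ, |Cn ψ| := Finset.sum_nonneg fun _ _ => abs_nonneg _
      simp only [A]; linarith
    rw [abs_mul]
    refine (mul_le_of_le_one_left (abs_nonneg _) (abs_re_apply_le ψ _)).trans (abs_le.2 ⟨?_, ?_⟩)
    · linarith [abs_nonneg (Cn ψ)]
    · linarith [h3 ψ hψ, le_abs_self (Cn ψ)]
  have h12 : 4 * L = 2 / ((m : ℝ) - 1) * (T * (2 * e * L)) := by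
    rw [show T * (2 * e * L) = ((m : ℝ) - 1) * (2 * L) by rw [← hT]; ring]
    field_simp
    ring
  rw [h12, ← mul_sub]
  exact mul_le_mul_of_nonneg_left (by linarith) (by positivity)

variable [Fintype G]

omit [Fintype G] in
theorem card_gal (D : Crossing F m G) : Nat.card (F ≃ₐ[ℚ] F) = Nat.card G * (m - 1) := by
  have hbij : Function.Bijective fun g : F ≃ₐ[ℚ] F => (D.r g, D.hζ.autToPow ℚ g) := by
    refine ⟨fun a b h => ?_, fun ⟨s, b⟩ => ?_⟩
    · obtain ⟨h1, h2⟩ := Prod.ext_iff.1 h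
      simp only at h1 h2
      exact inv_mul_eq_one.1 (D.inj _ (by rw [map_mul, map_inv, h1, inv_mul_cancel])
        (by rw [map_mul, map_inv, h2, inv_mul_cancel]))
    · obtain ⟨g, h1, h2⟩ := D.surj s b
      exact ⟨g, Prod.ext h1 h2⟩
  rw [Nat.card_eq_of_bijective _ hbij, Nat.card_prod, Nat.card_eq_fintype_card (α := (ZMod m)ˣ),
    ZMod.card_units_eq_totient, Nat.totient_prime Fact.out]

/-- **The crossing bound**: a symmetric class function is averaged from below. -/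
theorem exists_sum_ge (f : G → ℝ) (hf0 : ∀ x, 0 ≤ f x) (hconj : ∀ x y, f (y * x * y⁻¹) = f x)
    (hinv : ∀ x, f x⁻¹ = f x) (cs : G → Finset (ZMod m)ˣ)
    (hcs : ∀ x, ∀ c ∈ cs x, (∃ b : (ZMod m)ˣ, b ^ 2 = c) ∧ orderOf x ∣ orderOf c) :
    ∃ C : ℝ, ∀ᶠ s in 𝓝[>] (1 : ℝ),
      4 * (∑ x, f x * (cs x).card) * (-Real.log (s - 1)) - C ≤
        2 * (Nat.card G * ((m : ℝ) - 1)) * D.wsum (fun p => f (D.r (D.Fr p))) s := by
  have hpair : ∀ (x : G) (c : (ZMod m)ˣ), ∃ C : ℝ, c ∈ cs x → ∀ᶠ s in 𝓝[>] (1 : ℝ),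
      4 * (-Real.log (s - 1)) - C ≤ D.wsum (fun p => (D.wt (fun g => D.phi g = (x, c)) p : ℝ) +
        (D.wt (fun g => D.phi g = (x⁻¹, c⁻¹)) p : ℝ)) s := fun x c => by
    by_cases h : c ∈ cs x
    · obtain ⟨C, hC⟩ := D.exists_pair_count x c (hcs x c h).1 (hcs x c h).2
      exact ⟨C, fun _ => hC⟩
    · exact ⟨0, fun h' => absurd h' h⟩
  choose Cp hCp using hpair
  refine ⟨∑ x, ∑ c ∈ cs x, f x * Cp x c, ?_⟩
  filter_upwards [Filter.eventually_all.2 fun x =>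
    (Filter.eventually_all_finset (cs x)).2 fun c hc => hCp x c hc,
    Ioo_mem_nhdsGT (one_lt_two (α := ℝ))] with s hall hs12
  have hs : 1 < s := hs12.1
  set W : G → (ZMod m)ˣ → Nat.Primes → ℝ := fun x c p =>
    (D.wt (fun g => D.phi g = (x, c)) p : ℝ) + (D.wt (fun g => D.phi g = (x⁻¹, c⁻¹)) p : ℝ)
  have h1 : 4 * (∑ x, f x * (cs x).card) * (-Real.log (s - 1)) - ∑ x, ∑ c ∈ cs x, f x * Cp x c ≤
      ∑ x, ∑ c ∈ cs x, f x * D.wsum (W x c) s := by
    rw [Finset.mul_sum, Finset.sum_mul, ← Finset.sum_sub_distrib]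
    refine Finset.sum_le_sum fun x _ => ?_
    rw [show 4 * (f x * ((cs x).card : ℝ)) * (-Real.log (s - 1)) =
      ∑ c ∈ cs x, f x * (4 * (-Real.log (s - 1))) by rw [Finset.sum_const, nsmul_eq_mul]; ring,
      ← Finset.sum_sub_distrib]
    refine Finset.sum_le_sum fun c hc => ?_
    rw [← mul_sub]
    exact mul_le_mul_of_nonneg_left (hall x c hc) (hf0 x)
  refine h1.trans ?_
  have hWle : ∀ x c p, |W x c p| ≤ 2 * (Nat.card (F ≃ₐ[ℚ] F) : ℝ) := fun x c p => by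
    rw [abs_of_nonneg (by positivity), two_mul]
    exact add_le_add (D.wt_le _ p) (D.wt_le _ p)
  simp only [wsum, ← tsum_mul_left]
  rw [Finset.sum_congr rfl fun x _ => (Summable.tsum_finsetSum fun c _ =>
    (D.summable_wsum (hWle x c) hs).mul_left (f x)).symm,
    ← Summable.tsum_finsetSum fun x _ => summable_sum fun c _ =>
      (D.summable_wsum (hWle x c) hs).mul_left (f x)]
  refine Summable.tsum_le_tsum (fun p => ?_)
    (summable_sum fun x _ => summable_sum fun c _ => (D.summable_wsum (hWle x c) hs).mul_left (f x))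
    ((D.summable_wsum (M := ∑ x, |f x|) (fun p =>
      Finset.single_le_sum (f := fun x => |f x|) (fun x _ => abs_nonneg _) (Finset.mem_univ _))
        hs).mul_left _)
  split_ifs with hp
  · simp
  simp only [← mul_assoc, ← Finset.sum_mul]
  refine mul_le_mul_of_nonneg_right ?_ (Real.rpow_nonneg (Nat.cast_nonneg _) _)
  have hval : ∀ g : F ≃ₐ[ℚ] F, f (D.r (g * D.Fr p * g⁻¹)) = f (D.r (D.Fr p)) := fun g => by
    rw [map_mul, map_mul, map_inv, hconj]
  have hbound : ∀ (u : G → G) (v : (ZMod m)ˣ → (ZMod m)ˣ), Function.Injective u →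
      Function.Injective v → (∀ x, f (u x) = f x) →
      ∑ x, ∑ c ∈ cs x, f x * (D.wt (fun g => D.phi g = (u x, v c)) p : ℝ) ≤
        (Nat.card (F ≃ₐ[ℚ] F) : ℝ) * f (D.r (D.Fr p)) := by
    intro u v hu hv hfu
    have := Fintype.ofFinite (F ≃ₐ[ℚ] F)
    have hcnt : ∀ x c, (D.wt (fun g => D.phi g = (u x, v c)) p : ℝ) =
        ∑ g : F ≃ₐ[ℚ] F, if D.phi (g * D.Fr p * g⁻¹) = (u x, v c) then 1 else 0 := fun x c => by
      rw [wt, Nat.card_eq_fintype_card, Fintype.card_subtype, Finset.sum_boole]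
    simp only [hcnt, Finset.mul_sum, mul_ite, mul_one, mul_zero]
    rw [Finset.sum_congr rfl fun x _ => Finset.sum_comm, Finset.sum_comm]
    refine (Finset.sum_le_card_nsmul _ _ (f (D.r (D.Fr p))) fun g _ => ?_).trans_eq (by
      rw [nsmul_eq_mul, Finset.card_univ, Nat.card_eq_fintype_card])
    have hone : ∀ x, ∑ c ∈ cs x, (if D.phi (g * D.Fr p * g⁻¹) = (u x, v c) then f x else 0) ≤
        if D.r (g * D.Fr p * g⁻¹) = u x then f x else 0 := fun x => by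
      split_ifs with hx
      · by_cases hex : ∃ c ∈ cs x, D.phi (g * D.Fr p * g⁻¹) = (u x, v c)
        · obtain ⟨c, hc, hc'⟩ := hex
          rw [Finset.sum_eq_single_of_mem c hc fun d _ hd => if_neg fun hd' => hd
            (hv (congrArg Prod.snd (hd'.symm.trans hc'))), if_pos hc']
        · push Not at hex
          rw [Finset.sum_eq_zero fun c hc => if_neg (hex c hc)]
          exact hf0 x
      · rw [Finset.sum_eq_zero fun c _ => if_neg fun hc => hx (congrArg Prod.fst hc)]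
    refine (Finset.sum_le_sum fun x _ => hone x).trans ?_
    by_cases hex : ∃ x, D.r (g * D.Fr p * g⁻¹) = u x
    · obtain ⟨x, hx⟩ := hex
      rw [Finset.sum_eq_single_of_mem x (Finset.mem_univ x) fun y _ hy => if_neg fun hy' =>
        hy (hu (hy'.symm.trans hx)), if_pos hx, ← hval g, hx, hfu]
    · push Not at hex
      rw [Finset.sum_eq_zero fun x _ => if_neg (hex x)]
      exact hf0 _
  simp only [W, mul_add, Finset.sum_add_distrib]
  refine (add_le_add (hbound id id Function.injective_id Function.injective_id fun _ => rfl)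
    (hbound (·⁻¹) (·⁻¹) inv_injective inv_injective hinv)).trans_eq ?_
  rw [D.card_gal, Nat.cast_mul, Nat.cast_sub (Fact.out : m.Prime).one_le, Nat.cast_one]
  ring

end Crossing

end Fermat.Agent.DeligneSerre.Cheb
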