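import Fermat.Agent.DeligneSerre.Cheb.Weighted
import Fermat.Agent.ExtVanish.ClassDensity

/-!
# The prime sum of a twisted zeta function

The Euler product shows that the real part of `∑ φ(p) #{P : NP = p} p⁻ˢ` is bounded above as
`s → 1⁺` when `φ` takes a value `≠ 0, 1` at the norm of some prime.
-/

set_option autoImplicit false

noncomputable section

namespace Fermat.Agent.DeligneSerre.Cheb

open NumberField Filter Topology
open Fermat.Agent.Density Fermat.Agent.ExtVanish
open scoped Classical nonZeroDivisors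

variable {K : Type*} [Field K] [NumberField K] {m : ℕ} [NeZero m]

/-- The term of the twisted zeta function at an ideal. -/
def tTerm (φ : MulChar (ZMod m) ℂ) (s : ℝ) (I : Ideal (𝓞 K)) : ℂ :=
  φ (Ideal.absNorm I : ZMod m) * (idealWeight s I : ℂ)

omit [NeZero m] in
theorem tTerm_top (φ : MulChar (ZMod m) ℂ) (s : ℝ) : tTerm φ s (⊤ : Ideal (𝓞 K)) = 1 := by
  simp [tTerm, idealWeight_top]

omit [NeZero m] in
theorem tTerm_mul (φ : MulChar (ZMod m) ℂ) (s : ℝ) (I J : Ideal (𝓞 K)) :
    tTerm φ s (I * J) = tTerm φ s I * tTerm φ s J := by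
  rw [tTerm, tTerm, tTerm, map_mul, Nat.cast_mul, map_mul, idealWeight_mul, Complex.ofReal_mul]
  ring

theorem norm_tTerm_le (φ : MulChar (ZMod m) ℂ) (s : ℝ) (I : Ideal (𝓞 K)) :
    ‖tTerm φ s I‖ ≤ idealWeight s I := by
  rw [tTerm, norm_mul, Complex.norm_real, Real.norm_of_nonneg (idealWeight_nonneg s I)]
  exact mul_le_of_le_one_left (idealWeight_nonneg s I) (norm_apply_le_one φ _)

/-- The sum over all ideals, grouped by classes. -/
theorem hasSum_tTerm (φ : MulChar (ZMod m) ℂ) {s : ℝ} (hs : 1 < s) :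
    HasSum (tTerm (K := K) φ s) (∑ C : ClassGroup (𝓞 K), wclassZeta φ C s) :=
  hasSum_classes hs (norm_tTerm_le φ s) fun C => (summable_wclass φ C hs).hasSum

theorem exp_le_norm_inv_one_sub {x : ℂ} (hx : ‖x‖ ≤ 1 / 2) :
    Real.exp (x.re - ‖x‖ ^ 2) ≤ ‖(1 - x)⁻¹‖ := by
  have hpos : 0 < ‖1 - x‖ := norm_pos_iff.2 (sub_ne_zero.2 fun h => by
    rw [← h, norm_one] at hx
    norm_num at hx)
  rw [norm_inv, show x.re - ‖x‖ ^ 2 = -(‖x‖ ^ 2 - x.re) by ring, Real.exp_neg]
  refine inv_anti₀ hpos ?_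
  refine (pow_le_pow_iff_left₀ (norm_nonneg _) (Real.exp_pos _).le two_ne_zero).1 ?_
  rw [← Real.exp_nat_mul]
  refine le_trans (le_of_eq ?_)
    ((Real.add_one_le_exp (‖x‖ ^ 2 - 2 * x.re)).trans (Real.exp_le_exp.2 ?_))
  · rw [← Complex.normSq_eq_norm_sq, ← Complex.normSq_eq_norm_sq, Complex.normSq_sub, map_one,
      one_mul, Complex.conj_re]
    ring
  · push_cast
    nlinarith [sq_nonneg ‖x‖]

variable (K) in
/-- `∑ #{P : NP = p} φ(p) p⁻ˢ`. -/
def twistSum (φ : MulChar (ZMod m) ℂ) (s : ℝ) : ℝ :=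
  ∑' p : Nat.Primes, primeTerm K s p * (φ ((p : ℕ) : ZMod m)).re

theorem abs_re_apply_le (φ : MulChar (ZMod m) ℂ) (x : ZMod m) : |(φ x).re| ≤ 1 :=
  (Complex.abs_re_le_norm _).trans (norm_apply_le_one φ x)

theorem summable_twist (φ : MulChar (ZMod m) ℂ) {s : ℝ} (hs : 1 < s) :
    Summable fun p : Nat.Primes => primeTerm K s p * (φ ((p : ℕ) : ZMod m)).re := by
  refine Summable.of_norm_bounded (summable_primeTerm (K := K) hs) fun p => ?_
  rw [Real.norm_eq_abs, abs_mul, abs_of_nonneg (primeTerm_nonneg s p)]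
  exact mul_le_of_le_one_right (primeTerm_nonneg s p) (abs_re_apply_le φ _)

/-- The prime sum is at most the logarithm of the twisted zeta function. -/
theorem exp_twistSum_le (φ : MulChar (ZMod m) ℂ) {s : ℝ} (hs : 1 < s) :
    Real.exp (twistSum K φ s - 2 * (Module.finrank ℚ K * primeSqSum)) ≤
      ‖∑ C : ClassGroup (𝓞 K), wclassZeta φ C s‖ := by
  rw [← (hasSum_tTerm φ hs).tsum_eq]
  let fib : Nat.Primes → Finset (Ideal (𝓞 K)) := fun p =>
    (Ideal.finite_setOfPred_absNorm_eq (S := 𝓞 K) (p : ℕ)).toFinset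
  have hfib : ∀ p I, I ∈ fib p ↔ Ideal.absNorm I = (p : ℕ) := fun p I => by simp [fib]
  -- primes dividing a finite family of ideals, together with those of norm in `U`
  let primesOf : Finset Nat.Primes → Finset (Ideal (𝓞 K)) → Finset (Ideal (𝓞 K)) := fun U F =>
    primesDividing (U.biUnion fib) F
  have hprimes : ∀ U F, ∀ P ∈ primesOf U F, P.IsPrime ∧ P ≠ ⊥ := fun U F =>
    isPrime_of_mem_primesDividing fun P hP => by
      obtain ⟨p, -, hp⟩ := Finset.mem_biUnion.mp hP
      exact ⟨isPrime_of_absNorm_eq_prime p.2 ((hfib p P).1 hp),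
        ne_bot_of_absNorm_eq p.2.ne_zero ((hfib p P).1 hp)⟩
  -- the tail of the sum over rational primes
  set tail : Finset Nat.Primes → ℝ := fun U => ∑' p, primeTerm K s p - ∑ p ∈ U, primeTerm K s p
  have hlower : ∀ U F, Real.exp (∑ p ∈ U, primeTerm K s p * (φ ((p : ℕ) : ZMod m)).re -
      tail U - 2 * (Module.finrank ℚ K * primeSqSum)) ≤
        ‖∑' I : supportedIdeals (primesOf U F), tTerm φ s (I : Ideal (𝓞 K))‖ := by
    intro U F
    have hS := hprimes U F
    rw [(hasSum_supported hs (tTerm_top φ s) (tTerm_mul φ s) (norm_tTerm_le φ s) _ hS).tsum_eq,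
      norm_prod]
    refine le_trans ?_ (Finset.prod_le_prod (fun _ _ => (Real.exp_pos _).le) fun P hP =>
      exp_le_norm_inv_one_sub ((norm_tTerm_le φ s P).trans
        (idealWeight_prime_le_half hs (hS P hP).1 (hS P hP).2)))
    rw [← Real.exp_sum, Real.exp_le_exp, Finset.sum_sub_distrib]
    have hsq : ∑ P ∈ primesOf U F, ‖tTerm φ s P‖ ^ 2 ≤ Module.finrank ℚ K * primeSqSum :=
      (Finset.sum_le_sum fun P _ => pow_le_pow_left₀ (norm_nonneg _) (norm_tTerm_le φ s P) 2).trans
        (sum_idealWeight_sq_le hs _ hS)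
    set T₀ := U.biUnion fib
    have hT₀ : ∑ p ∈ U, primeTerm K s p * (φ ((p : ℕ) : ZMod m)).re =
        ∑ P ∈ T₀, (tTerm φ s P).re := by
      rw [Finset.sum_biUnion]
      · refine Finset.sum_congr rfl fun p _ => ?_
        rw [Finset.sum_congr rfl (g := fun _ => (φ ((p : ℕ) : ZMod m)).re * ((p : ℕ) : ℝ) ^ (-s))
          (fun I hI => by rw [tTerm, Complex.mul_re, Complex.ofReal_re, Complex.ofReal_im, mul_zero,
            sub_zero, idealWeight, (hfib p I).1 hI]), Finset.sum_const, nsmul_eq_mul]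
        unfold primeTerm normCount
        rw [show Nat.card {I : Ideal (𝓞 K) // Ideal.absNorm I = (p : ℕ)} = (fib p).card from
          Nat.card_eq_card_finite_toFinset (Ideal.finite_setOfPred_absNorm_eq (S := 𝓞 K) (p : ℕ))]
        ring
      · intro p _ q _ hpq
        rw [Function.onFun, Finset.disjoint_left]
        intro I hp hq
        exact hpq (Subtype.ext (((hfib p I).1 hp).symm.trans ((hfib q I).1 hq)))
    have hrest : -(tail U + Module.finrank ℚ K * primeSqSum) ≤
        ∑ P ∈ primesOf U F \ T₀, (tTerm φ s P).re := by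
      refine le_trans ?_ (Finset.sum_le_sum fun P _ => neg_le_of_abs_le
        ((Complex.abs_re_le_norm _).trans (norm_tTerm_le φ s P)))
      rw [Finset.sum_neg_distrib, neg_le_neg_iff]
      -- split by degree
      set R := primesOf U F \ T₀
      have hR : ∀ P ∈ R, P.IsPrime ∧ P ≠ ⊥ := fun P hP => hS P (Finset.mem_sdiff.1 hP).1
      rw [← Finset.sum_filter_add_sum_filter_not R fun P => (Ideal.absNorm P).Prime]
      refine add_le_add ?_ ?_
      · let π : Ideal (𝓞 K) → Nat.Primes := fun P =>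
          if h : (Ideal.absNorm P).Prime then ⟨_, h⟩ else ⟨2, Nat.prime_two⟩
        set R₁ := R.filter fun P => (Ideal.absNorm P).Prime
        have hπ : ∀ P ∈ R₁, (π P : ℕ) = Ideal.absNorm P := fun P hP => by
          simp [π, (Finset.mem_filter.1 hP).2]
        have hout : ∀ q ∈ R₁.image π, q ∉ U := by
          intro q hq hqU
          obtain ⟨P, hP, rfl⟩ := Finset.mem_image.1 hq
          exact (Finset.mem_sdiff.1 (Finset.mem_filter.1 hP).1).2
            (Finset.mem_biUnion.2 ⟨_, hqU, (hfib _ P).2 (hπ P hP).symm⟩)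
        rw [← Finset.sum_fiberwise_of_maps_to (g := π) (t := R₁.image π)
          (fun P hP => Finset.mem_image_of_mem π hP)]
        refine le_trans (Finset.sum_le_sum (g := primeTerm K s) fun q _ => ?_) ?_
        · refine (Finset.sum_le_card_nsmul _ _ (((q : ℕ) : ℝ) ^ (-s)) fun P hP => ?_).trans ?_
          · obtain ⟨hP', rfl⟩ := Finset.mem_filter.1 hP
            rw [idealWeight, hπ P hP']
          · rw [nsmul_eq_mul]
            refine mul_le_mul_of_nonneg_right ?_ (Real.rpow_nonneg (Nat.cast_nonneg _) _)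
            refine Nat.cast_le.2 (le_trans (Finset.card_le_card ?_)
              (card_filter_absNorm_le_normCount R₁ q))
            intro P hP
            obtain ⟨hP', rfl⟩ := Finset.mem_filter.1 hP
            exact Finset.mem_filter.2 ⟨hP', (hπ P hP').symm⟩
        · have h := (summable_primeTerm (K := K) hs).sum_le_tsum (U ∪ R₁.image π)
            fun p _ => primeTerm_nonneg s p
          rw [Finset.sum_union (Finset.disjoint_right.2 hout)] at h
          simp only [tail]
          linarith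
      · refine sum_idealWeight_le_primeSq _ (fun P hP => hR P (Finset.mem_filter.1 hP).1) _ ?_
        intro P hP p hp hmem
        obtain ⟨hP, hnp⟩ := Finset.mem_filter.1 hP
        obtain ⟨n, hn, h⟩ := absNorm_eq_pow_of_natCast_mem hp (hR P hP).1 hmem
        have hn2 : 2 ≤ n := by
          by_contra hlt
          obtain rfl : n = 1 := by omega
          exact hnp (by rw [h, pow_one]; exact hp)
        unfold idealWeight
        rw [h, Nat.cast_pow, ← Real.rpow_natCast (n := n), ← Real.rpow_mul (Nat.cast_nonneg _)]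
        refine Real.rpow_le_rpow_of_exponent_le (by exact_mod_cast hp.one_le) ?_
        have : (2 : ℝ) ≤ n := by exact_mod_cast hn2
        nlinarith
    have hsub : T₀ ⊆ primesOf U F := Finset.subset_union_left
    rw [← Finset.sum_sdiff hsub]
    linarith
  -- let the family grow
  have hlimF : ∀ U, Tendsto (fun F =>
    ‖∑' I : supportedIdeals (primesOf U F), tTerm φ s (I : Ideal (𝓞 K))‖)
      atTop (𝓝 ‖∑' I : Ideal (𝓞 K), tTerm φ s I‖) := fun U =>
    (tendsto_tsum_supported hs (norm_tTerm_le φ s) _).norm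
  have hU : ∀ U, Real.exp (∑ p ∈ U, primeTerm K s p * (φ ((p : ℕ) : ZMod m)).re -
      tail U - 2 * (Module.finrank ℚ K * primeSqSum)) ≤ ‖∑' I : Ideal (𝓞 K), tTerm φ s I‖ :=
    fun U => ge_of_tendsto' (hlimF U) (hlower U)
  refine le_of_tendsto' (x := (atTop : Filter (Finset Nat.Primes))) ?_ hU
  refine (Real.continuous_exp.tendsto _).comp ?_
  have h1 : Tendsto (fun U : Finset Nat.Primes =>
      ∑ p ∈ U, primeTerm K s p * (φ ((p : ℕ) : ZMod m)).re) atTop (𝓝 (twistSum K φ s)) :=
    (summable_twist φ hs).hasSum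
  have h2 : Tendsto tail atTop (𝓝 0) := by
    have h3 : Tendsto (fun U : Finset Nat.Primes => ∑ p ∈ U, primeTerm K s p) atTop
        (𝓝 (∑' p, primeTerm K s p)) := (summable_primeTerm hs).hasSum
    have h4 := (tendsto_const_nhds (x := ∑' p, primeTerm K s p)).sub h3
    rwa [sub_self] at h4
  have h5 := (h1.sub h2).sub (tendsto_const_nhds (x := 2 * (Module.finrank ℚ K * primeSqSum)))
  rwa [sub_zero] at h5

/-- **The upper bound.** -/
theorem eventually_twistSum_le [Fact m.Prime] (φ : MulChar (ZMod m) ℂ) (heven : φ (-1) = 1)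
    (P : Ideal (𝓞 K)) (hP : P.IsPrime) (hP0 : φ (Ideal.absNorm P : ZMod m) ≠ 0)
    (hP1 : φ (Ideal.absNorm P : ZMod m) ≠ 1) :
    ∃ C : ℝ, ∀ᶠ s in 𝓝[>] (1 : ℝ), twistSum K φ s ≤ C := by
  obtain ⟨B, hB⟩ := exists_wzeta_bound φ heven P hP hP0 hP1
  refine ⟨Real.log (max B 1) + 2 * (Module.finrank ℚ K * primeSqSum), ?_⟩
  filter_upwards [hB, self_mem_nhdsWithin] with s hs hs1
  have h := (exp_twistSum_le (K := K) φ (s := s) hs1).trans (hs.trans (le_max_left B 1))
  have h1 := (Real.le_log_iff_exp_le (lt_of_lt_of_le one_pos (le_max_right B 1))).2 h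
  linarith

end Fermat.Agent.DeligneSerre.Cheb
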