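import Fermat.Agent.DeligneSerre.Cheb.Cross
import Fermat.Agent.MazurStep.Global.Kummer

/-!
# Frobenius elements are equidistributed for symmetric class functions

For a finite normal `N/ℚ` and a class function `f ≥ 0` on `Gal(N/ℚ)` with `f(x⁻¹) = f(x)`, the sum
of `f(Frob_p) p⁻ˢ` is at least `(1 - ε) · mean(f) · log (1/(s-1)) - C`.
-/

set_option autoImplicit false

noncomputable section

namespace Fermat.Agent.DeligneSerre.Cheb

open NumberField Filter Topology IntermediateField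
open Fermat.Agent
open scoped Classical Pointwise

local notation "ℚbar" => AlgebraicClosure ℚ
local notation "Γ" => AlgebraicClosure ℚ ≃ₐ[ℚ] AlgebraicClosure ℚ

/-- Most squares modulo `m` have order divisible by `n`. -/
theorem card_bad_le {m n t : ℕ} [Fact m.Prime] (hm2 : 2 < m) (hn : 0 < n) (ht : 1 ≤ t)
    (hdvd : 2 * n ^ t ∣ m - 1) :
    (((Finset.univ.filter fun c : (ZMod m)ˣ => ∃ b, b ^ 2 = c).filter
      fun c => ¬ n ∣ orderOf c).card : ℝ) * 2 ^ (t - 1) ≤ (n : ℝ) * (((m : ℝ) - 1) / 2) := by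
  have hm : m.Prime := Fact.out
  obtain ⟨r₀, hr₀⟩ := hdvd
  set h := n ^ t * r₀ with hh
  have hm1 : m - 1 = 2 * h := by rw [hr₀, hh, mul_assoc]
  have hhpos : 0 < h := by
    rcases Nat.eq_zero_or_pos h with h0 | h0
    · rw [h0] at hm1; omega
    · exact h0
  set bad := (Finset.univ.filter fun c : (ZMod m)ˣ => ∃ b, b ^ 2 = c).filter
    fun c => ¬ n ∣ orderOf c
  have hsub : bad ⊆ n.primeFactors.biUnion fun q =>
      Finset.univ.filter fun c : (ZMod m)ˣ => c ^ (h / q ^ (t - 1)) = 1 := by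
    intro c hc
    rw [Finset.mem_filter, Finset.mem_filter] at hc
    obtain ⟨⟨-, b, rfl⟩, hndvd⟩ := hc
    have heh : orderOf (b ^ 2) ∣ h := by
      refine orderOf_dvd_of_pow_eq_one ?_
      rw [← pow_mul, ← hm1]
      exact ZMod.units_pow_card_sub_one_eq_one m b
    obtain ⟨q, k, hq, hqk, hndvd'⟩ : ∃ q k : ℕ,
      q.Prime ∧ q ^ k ∣ n ∧ ¬ q ^ k ∣ orderOf (b ^ 2) := by
      by_contra hall
      push Not at hall
      refine hndvd ?_
      refine Nat.dvd_iff_prime_pow_dvd_dvd _ _ |>.2 fun q k hq hqk => hall q k hq hqk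
    have hk : 0 < k := by
      rcases Nat.eq_zero_or_pos k with rfl | hk
      · exact absurd (by simp) hndvd'
      · exact hk
    simp only [Finset.mem_biUnion, Finset.mem_filter, Finset.mem_univ, true_and,
      Nat.mem_primeFactors]
    refine ⟨q, ⟨hq, (dvd_pow_self q hk.ne').trans hqk, hn.ne'⟩, ?_⟩
    obtain ⟨r, hr⟩ : q ^ (k * t) ∣ h := by
      rw [pow_mul]
      exact (pow_dvd_pow_of_dvd hqk t).trans (dvd_mul_right _ _)
    have hkt : t - 1 + (k - 1) ≤ k * t := by
      obtain ⟨k, rfl⟩ := Nat.exists_eq_add_of_le hk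
      obtain ⟨t, rfl⟩ := Nat.exists_eq_add_of_le ht
      simp only [add_tsub_cancel_left]
      nlinarith
    have hdiv : h / q ^ (t - 1) = q ^ (k * t - (t - 1)) * r := by
      rw [hr, Nat.mul_comm, Nat.mul_div_assoc _ (pow_dvd_pow q (by omega)),
        Nat.pow_div (by omega) hq.pos, Nat.mul_comm]
    rw [hdiv]
    rw [hr] at heh
    obtain ⟨d1, d2, hd1, hd2, he⟩ := Nat.dvd_mul.1 heh
    obtain ⟨j, -, rfl⟩ := (Nat.dvd_prime_pow hq).1 hd1
    have hj : j < k := by
      by_contra hj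
      exact hndvd' (((pow_dvd_pow q (Nat.le_of_not_lt hj)).trans (dvd_mul_right _ d2)).trans he.dvd)
    exact orderOf_dvd_iff_pow_eq_one.1 (he ▸ mul_dvd_mul (pow_dvd_pow q (by omega)) hd2)
  have hroots : ∀ k : ℕ, 0 < k →
      (Finset.univ.filter fun c : (ZMod m)ˣ => c ^ k = 1).card ≤ k := by
    intro k hk
    refine le_trans ?_ (Polynomial.card_nthRoots k (1 : ZMod m))
    refine le_trans ?_ (Multiset.toFinset_card_le _)
    refine Finset.card_le_card_of_injOn (fun c => (c : ZMod m)) (fun c hc => ?_)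
      Units.val_injective.injOn
    rw [Finset.coe_filter, Set.mem_ofPred_eq] at hc
    simp only [Finset.mem_coe, Multiset.mem_toFinset, Polynomial.mem_nthRoots hk]
    rw [← Units.val_pow_eq_pow_val, hc.2, Units.val_one]
  have hcard : ∀ q ∈ n.primeFactors,
      ((Finset.univ.filter fun c : (ZMod m)ˣ => c ^ (h / q ^ (t - 1)) = 1).card : ℝ) * 2 ^ (t - 1) ≤
        h := by
    intro q hq
    obtain ⟨hq, hqn, -⟩ := Nat.mem_primeFactors.1 hq
    have hqd : q ^ (t - 1) ∣ h :=
      ((pow_dvd_pow_of_dvd hqn _).trans (pow_dvd_pow n (by omega))).trans (dvd_mul_right _ _)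
    have h1 := hroots _ (Nat.div_pos (Nat.le_of_dvd hhpos hqd) (pow_pos hq.pos _))
    calc _ ≤ ((h / q ^ (t - 1) : ℕ) : ℝ) * ((q ^ (t - 1) : ℕ) : ℝ) :=
          mul_le_mul (by exact_mod_cast h1) (by exact_mod_cast Nat.pow_le_pow_left hq.two_le _)
            (by positivity) (Nat.cast_nonneg _)
      _ = (h : ℝ) := by rw [← Nat.cast_mul, Nat.div_mul_cancel hqd]
  have hh2 : (h : ℝ) = ((m : ℝ) - 1) / 2 := by
    have : ((m - 1 : ℕ) : ℝ) = ((2 * h : ℕ) : ℝ) := by rw [hm1]
    rw [Nat.cast_sub hm.one_le, Nat.cast_one, Nat.cast_mul, Nat.cast_ofNat] at this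
    linarith
  calc (bad.card : ℝ) * 2 ^ (t - 1)
      ≤ (∑ q ∈ n.primeFactors,
          ((Finset.univ.filter fun c : (ZMod m)ˣ => c ^ (h / q ^ (t - 1)) = 1).card : ℝ)) *
            2 ^ (t - 1) := by
        refine mul_le_mul_of_nonneg_right ?_ (by positivity)
        exact_mod_cast (Finset.card_le_card hsub).trans Finset.card_biUnion_le
    _ ≤ ∑ _q ∈ n.primeFactors, (h : ℝ) := by
        rw [Finset.sum_mul]
        exact Finset.sum_le_sum hcard
    _ ≤ (n : ℝ) * (((m : ℝ) - 1) / 2) := by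
        rw [Finset.sum_const, nsmul_eq_mul, hh2]
        refine mul_le_mul_of_nonneg_right ?_ (by rw [← hh2]; positivity)
        have hsub' : n.primeFactors ⊆ Finset.Icc 1 n := fun q hq => by
          obtain ⟨hq, hqn, -⟩ := Nat.mem_primeFactors.1 hq
          exact Finset.mem_Icc.2 ⟨hq.one_le, Nat.le_of_dvd hn hqn⟩
        exact_mod_cast (Finset.card_le_card hsub').trans (by simp)

/-- The squares of order divisible by `n`. -/
def goodSquares (m n : ℕ) [NeZero m] : Finset (ZMod m)ˣ :=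
  Finset.univ.filter fun c => (∃ b, b ^ 2 = c) ∧ n ∣ orderOf c

theorem card_goodSquares_ge {m n t : ℕ} [Fact m.Prime] (hm2 : 2 < m) (hn : 0 < n) (ht : 1 ≤ t)
    (hdvd : 2 * n ^ t ∣ m - 1) {ε : ℝ} (hε : (n : ℝ) / 2 ^ (t - 1) ≤ ε) :
    (1 - ε) * (((m : ℝ) - 1) / 2) ≤ ((goodSquares m n).card : ℝ) := by
  have hm : m.Prime := Fact.out
  set Sq := Finset.univ.filter fun c : (ZMod m)ˣ => ∃ b, b ^ 2 = c
  have hSq : ((m : ℝ) - 1) / 2 ≤ (Sq.card : ℝ) := by
    have h1 : (Finset.univ : Finset (ZMod m)ˣ).card ≤ 2 * Sq.card := by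
      refine Finset.card_le_mul_card_image_of_maps_to (f := fun b => b ^ 2)
        (fun b _ => Finset.mem_filter.2 ⟨Finset.mem_univ _, b, rfl⟩) 2 fun c _ => ?_
      rcases Finset.eq_empty_or_nonempty
        (Finset.univ.filter fun b : (ZMod m)ˣ => b ^ 2 = c) with h | ⟨b₀, hb₀⟩
      · rw [h]; simp
      · refine le_trans (Finset.card_le_card (t := {b₀, -b₀}) fun b hb => ?_) Finset.card_le_two
        rw [Finset.mem_filter] at hb hb₀
        rw [Finset.mem_insert, Finset.mem_singleton]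
        have h2 : (b : ZMod m) ^ 2 = (b₀ : ZMod m) ^ 2 := by
          rw [← Units.val_pow_eq_pow_val, ← Units.val_pow_eq_pow_val, hb.2, hb₀.2]
        rcases sq_eq_sq_iff_eq_or_eq_neg.1 h2 with h3 | h3
        · exact Or.inl (Units.ext h3)
        · exact Or.inr (Units.ext (by rw [Units.val_neg]; exact h3))
    rw [Finset.card_univ, ZMod.card_units_eq_totient, Nat.totient_prime hm] at h1
    have : ((m - 1 : ℕ) : ℝ) ≤ ((2 * Sq.card : ℕ) : ℝ) := by exact_mod_cast h1
    rw [Nat.cast_sub hm.one_le, Nat.cast_one, Nat.cast_mul, Nat.cast_ofNat] at this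
    linarith
  have hsplit := Finset.card_filter_add_card_filter_not (s := Sq) (fun c => n ∣ orderOf c)
  have hgood : Sq.filter (fun c => n ∣ orderOf c) = goodSquares m n := by
    rw [goodSquares, Finset.filter_filter]
  rw [hgood] at hsplit
  have hbad := card_bad_le hm2 hn ht hdvd
  have h2 : (0 : ℝ) < 2 ^ (t - 1) := by positivity
  have hm1 : (0 : ℝ) ≤ ((m : ℝ) - 1) / 2 := by
    have : (1 : ℝ) ≤ (m : ℝ) := by exact_mod_cast hm.one_le
    linarith
  have h3 : ((Sq.filter fun c => ¬ n ∣ orderOf c).card : ℝ) ≤ ε * (((m : ℝ) - 1) / 2) := by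
    refine le_trans ?_ (mul_le_mul_of_nonneg_right hε hm1)
    rw [div_mul_eq_mul_div, le_div_iff₀ h2]
    exact hbad
  have h4 : ((goodSquares m n).card : ℝ) + ((Sq.filter fun c => ¬ n ∣ orderOf c).card : ℝ) =
      (Sq.card : ℝ) := by exact_mod_cast hsplit
  linarith

/-- The primes over rational primes cut out by places of `ℚ̄`. -/
def primeOf (E : IntermediateField ℚ ℚbar) (A : ValuationSubring ℚbar) : Ideal (𝓞 E) :=
  (Gal.centre A).comap (((algebraMap E ℚbar).comp (algebraMap (𝓞 E) E)).codRestrict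
    (integralClosure ℤ ℚbar) fun x => (RingOfIntegers.isIntegral_coe x).algebraMap)

instance primeOf_isPrime (E : IntermediateField ℚ ℚbar) (A : ValuationSubring ℚbar) :
    (primeOf E A).IsPrime :=
  inferInstanceAs (Ideal.comap _ _).IsPrime

theorem mem_primeOf {E : IntermediateField ℚ ℚbar} {A : ValuationSubring ℚbar} (x : 𝓞 E) :
    x ∈ primeOf E A ↔ ((x : E) : ℚbar) ∈ A.nonunits := Iff.rfl

section

variable (E : IntermediateField ℚ ℚbar) [NumberField E] [Normal ℚ E]
  {A : ValuationSubring ℚbar}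

omit [NumberField E] in
theorem restrict_smul_coe (u : Γ) (x : 𝓞 E) :
    (((AlgEquiv.restrictNormalHom E u • x : 𝓞 E) : E) : ℚbar) = u ((x : E) : ℚbar) :=
  AlgEquiv.restrictNormal_commutes u E (x : E)

theorem frobAt_restrict {ℓ : ℕ} {τ : Γ} (hτ : A.IsFrobeniusAt τ ℓ) :
    Density.FrobAt (primeOf E A) ℓ (AlgEquiv.restrictNormalHom E τ) := fun y => by
  rw [mem_primeOf]
  simpa [restrict_smul_coe] using ((Gal.isFrobeniusAt_iff A τ ℓ).1 hτ).2 _
    (Gal.mem_of_isIntegral A (RingOfIntegers.isIntegral_coe y).algebraMap)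

theorem restrict_eq_one_of_inertia (hdet : Density.DeterminedMod (primeOf E A)) {u : Γ}
    (hu : u ∈ A.inertiaSubgroupIn ℚ) : AlgEquiv.restrictNormalHom E u = 1 :=
  hdet _ 1 fun y => by
    rw [one_smul, mem_primeOf]
    simpa [restrict_smul_coe] using ((Gal.mem_inertia_iff A u).1 hu).2 _
      (Gal.mem_of_isIntegral A (RingOfIntegers.isIntegral_coe y).algebraMap)

omit [NumberField E] [Normal ℚ E] in
theorem natCast_mem_primeOf {ℓ : ℕ} (hA : A.LiesOverPrime ℓ) : (ℓ : 𝓞 E) ∈ primeOf E A := by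
  rw [mem_primeOf]
  simpa [ValuationSubring.LiesOverPrime] using hA

end

/-- **Symmetric Chebotarev, lower bound.** -/
theorem exists_frobenius_sum_ge (N : IntermediateField ℚ ℚbar) [FiniteDimensional ℚ N]
    [Normal ℚ N] (f : (N ≃ₐ[ℚ] N) → ℝ) (hf0 : ∀ x, 0 ≤ f x)
    (hconj : ∀ x y, f (y * x * y⁻¹) = f x) (hinv : ∀ x, f x⁻¹ = f x) {ε : ℝ} (hε : 0 < ε)
    (T : Finset ℕ) :
    ∃ C : ℝ, ∀ᶠ s in 𝓝[>] (1 : ℝ), ∀ g : Nat.Primes → ℝ, (∀ p, 0 ≤ g p) →
      (Summable fun p : Nat.Primes => g p * ((p : ℕ) : ℝ) ^ (-s)) →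
      (∀ p : Nat.Primes, (p : ℕ) ∉ T → ∀ A : ValuationSubring ℚbar, A.LiesOverPrime p →
        ∀ τ : Γ, A.IsFrobeniusAt τ p → f (AlgEquiv.restrictNormalHom N τ) ≤ g p) →
      (1 - ε) * ((∑ x, f x) / Nat.card (N ≃ₐ[ℚ] N)) * (-Real.log (s - 1)) - C ≤
        ∑' p : Nat.Primes, g p * ((p : ℕ) : ℝ) ^ (-s) := by
  have : NumberField N := ⟨⟩
  have : IsGalois ℚ N := ⟨⟩
  set n := Nat.card (N ≃ₐ[ℚ] N) with hn
  have hn0 : 0 < n := Nat.card_pos
  -- the auxiliary prime
  obtain ⟨t₀, ht₀⟩ := pow_unbounded_of_one_lt ((n : ℝ) / ε) (one_lt_two (α := ℝ))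
  set t := t₀ + 1
  have htε : (n : ℝ) / 2 ^ (t - 1) ≤ ε := by
    rw [div_lt_iff₀ hε] at ht₀
    rw [div_le_iff₀ (by positivity)]
    simp only [t, add_tsub_cancel_right]
    linarith
  obtain ⟨B, hB, hBdet⟩ := Density.exists_bad_modulus N
  obtain ⟨m, hm, hmB, hmod⟩ := Nat.exists_prime_gt_modEq_one (k := 2 * n ^ t) (B + 2)
    (mul_ne_zero two_ne_zero (pow_ne_zero _ hn0.ne'))
  have : Fact m.Prime := ⟨hm⟩
  have : NeZero m := ⟨hm.ne_zero⟩
  have hm2 : 2 < m := by omega
  have hdvd : 2 * n ^ t ∣ m - 1 := (Nat.modEq_iff_dvd' hm.one_le).1 hmod.symm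
  -- the roots of unity
  obtain ⟨ζ, hζ⟩ := HasEnoughRootsOfUnity.exists_primitiveRoot ℚbar m
  set Z := IntermediateField.adjoin ℚ {ζ}
  have : FiniteDimensional ℚ Z :=
    IntermediateField.adjoin.finiteDimensional (Algebra.IsIntegral.isIntegral ζ)
  have : Normal ℚ Z := by
    refine IntermediateField.normal_iff_forall_map_le'.2 fun σ => ?_
    rw [IntermediateField.adjoin_map, Set.image_singleton, IntermediateField.adjoin_simple_le_iff]
    change σ ζ ∈ Z
    rw [← hζ.autToPow_spec ℚ σ]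
    exact pow_mem (IntermediateField.mem_adjoin_simple_self ℚ ζ) _
  set F := N ⊔ Z
  have : FiniteDimensional ℚ F := IntermediateField.finiteDimensional_sup N Z
  have : NumberField F := ⟨⟩
  have : Normal ℚ F := @IntermediateField.normal_sup ℚ ℚbar _ _ _ N Z
    (by convert (inferInstance : Normal ℚ N); exact Subsingleton.elim _ _)
    (by convert (inferInstance : Normal ℚ Z); exact Subsingleton.elim _ _)
  have : IsGalois ℚ F := ⟨⟩
  have hNF : N ≤ F := le_sup_left
  have hζF : ζ ∈ F := (le_sup_right : Z ≤ F) (IntermediateField.mem_adjoin_simple_self ℚ ζ)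
  let : Algebra N F := (IntermediateField.inclusion hNF).toRingHom.toAlgebra
  have : IsScalarTower ℚ N F := IsScalarTower.of_algebraMap_eq fun _ => rfl
  let r : (F ≃ₐ[ℚ] F) →* (N ≃ₐ[ℚ] N) := AlgEquiv.restrictNormalHom N
  have hr : ∀ (g : F ≃ₐ[ℚ] F) (x : N), ((r g x : N) : ℚbar) = ((g ⟨x, hNF x.2⟩ : F) : ℚbar) :=
    fun g x => congrArg Subtype.val (AlgEquiv.restrictNormal_commutes g N x)
  have hrσ : ∀ σ : Γ, r (AlgEquiv.restrictNormalHom F σ) = AlgEquiv.restrictNormalHom N σ := by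
    intro σ
    refine AlgEquiv.ext fun x => Subtype.ext ?_
    rw [hr]
    exact (AlgEquiv.restrictNormal_commutes σ F ⟨x, hNF x.2⟩).trans
      (AlgEquiv.restrictNormal_commutes σ N x).symm
  let ζF : F := ⟨ζ, hζF⟩
  have hζF' : IsPrimitiveRoot ζF m :=
    IsPrimitiveRoot.of_map_of_injective (f := algebraMap F ℚbar) hζ (algebraMap F ℚbar).injective
  have haut : ∀ σ : Γ, hζF'.autToPow ℚ (AlgEquiv.restrictNormalHom F σ) = hζ.autToPow ℚ σ := by
    intro σ
    refine Units.ext ((ZMod.val_injective m) (hζ.pow_inj (ZMod.val_lt _) (ZMod.val_lt _) ?_))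
    rw [hζ.autToPow_spec ℚ σ]
    have h := congrArg Subtype.val (hζF'.autToPow_spec ℚ (AlgEquiv.restrictNormalHom F σ))
    exact h.trans (AlgEquiv.restrictNormal_commutes σ F ζF)
  -- restriction to `N` and the action on `ζ` are independent
  let e : Γ →* (ZMod m)ˣ := hζ.autToPow ℚ
  let H : Subgroup (ZMod m)ˣ := (AlgEquiv.restrictNormalHom (F := ℚ) (K₁ := ℚbar) N).ker.map e
  have hH : ∀ b, b ∈ H := by
    have hχ : (QuotientGroup.mk' H).comp e = 1 := by
      refine Gal.eq_one_of_inertia_trivial _ ⟨F, inferInstance, fun σ hσ => ?_⟩ ?_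
      · have h1 : AlgEquiv.restrictNormalHom F σ = 1 := AlgEquiv.ext fun x =>
          Subtype.ext ((AlgEquiv.restrictNormal_commutes σ F x).trans (hσ x x.2))
        rw [MonoidHom.comp_apply, show e σ = 1 from by rw [← haut, h1, map_one], map_one]
      · intro q hq A hA σ hσ
        rw [MonoidHom.comp_apply]
        by_cases hqm : q = m
        · subst hqm
          refine (QuotientGroup.eq_one_iff _).2 ⟨σ, ?_, rfl⟩
          exact restrict_eq_one_of_inertia N (hBdet q (primeOf N A) hq inferInstance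
            (natCast_mem_primeOf N hA) fun h => by
              have := Nat.le_of_dvd (Nat.pos_of_ne_zero hB) h; omega) hσ
        · rw [show e σ = 1 from MazurStep.Global.autToPow_eq_one_of_inertia hζ hq hqm hA hσ,
            map_one]
    intro b
    have hroot : Polynomial.aeval (ζ ^ (b : ZMod m).val) (minpoly ℚ ζ) = 0 := by
      rw [← Polynomial.cyclotomic_eq_minpoly_rat hζ hm.pos, Polynomial.aeval_def,
        Polynomial.eval₂_eq_eval_map, Polynomial.map_cyclotomic, ← Polynomial.IsRoot.def,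
        Polynomial.isRoot_cyclotomic_iff]
      exact hζ.pow_of_coprime _ (ZMod.val_coe_unit_coprime b)
    obtain ⟨σ, hσ⟩ := minpoly.exists_algEquiv_of_root'
      (Algebra.IsAlgebraic.isAlgebraic (R := ℚ) ζ) hroot
    have heq : e σ = b := by
      refine Units.ext ((ZMod.val_injective m) (hζ.pow_inj (ZMod.val_lt _) (ZMod.val_lt _) ?_))
      rw [hζ.autToPow_spec ℚ σ, hσ]
    have := DFunLike.congr_fun hχ σ
    rw [MonoidHom.comp_apply, MonoidHom.one_apply, heq] at this
    exact (QuotientGroup.eq_one_iff _).1 this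
  -- places and Frobenius elements
  choose A hA using fun p : Nat.Primes => Gal.exists_liesOverPrime (L := ℚbar) p.2
  choose τ hτ using fun p : Nat.Primes => Gal.exists_isFrobeniusAt p.2 (hA p)
  obtain ⟨BF, hBF, hBFdet⟩ := Density.exists_bad_modulus F
  let D : Crossing F m (N ≃ₐ[ℚ] N) :=
    { ζ := ζF
      hζ := hζF'
      two_lt := hm2
      r := r
      inj := fun g hg1 hg2 => by
        obtain ⟨σ, rfl⟩ := AlgEquiv.restrictNormalHom_surjective (E := ℚbar) (F := ℚ) (K₁ := F) g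
        rw [hrσ] at hg1
        rw [haut] at hg2
        refine AlgEquiv.ext fun x => Subtype.ext ?_
        rw [AlgEquiv.one_apply]
        refine (AlgEquiv.restrictNormal_commutes σ F x).trans ?_
        have hle : F ≤ IntermediateField.fixedField (Subgroup.zpowers σ) := by
          have hfix : ∀ y : ℚbar, σ y = y →
              y ∈ IntermediateField.fixedField (Subgroup.zpowers σ) := by
            rintro y hy ⟨g, hg⟩
            change g y = y
            exact Subgroup.zpowers_le.2 (show σ ∈ MulAction.stabilizer Γ y from hy) hg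
          refine sup_le (fun y hy => hfix y ?_) ?_
          · exact (AlgEquiv.restrictNormal_commutes σ N ⟨y, hy⟩).symm.trans
              (congrArg (fun h : N ≃ₐ[ℚ] N => ((h ⟨y, hy⟩ : N) : ℚbar)) hg1)
          · refine IntermediateField.adjoin_simple_le_iff.2 (hfix ζ ?_)
            rw [← hζ.autToPow_spec ℚ σ, hg2, Units.val_one, ZMod.val_one, pow_one]
        exact hle x.2 ⟨σ, Subgroup.mem_zpowers σ⟩
      surj := fun x b => by
        obtain ⟨σ₀, rfl⟩ := AlgEquiv.restrictNormalHom_surjective (E := ℚbar) (F := ℚ) (K₁ := N) x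
        obtain ⟨k, hk, hk'⟩ := hH (b * (e σ₀)⁻¹)
        refine ⟨AlgEquiv.restrictNormalHom F (k * σ₀), ?_, ?_⟩
        · rw [hrσ, map_mul, MonoidHom.mem_ker.1 hk, one_mul]
        · rw [haut]
          change e (k * σ₀) = b
          rw [map_mul, hk', inv_mul_cancel_right]
      bad := m * BF
      bad_ne := mul_ne_zero hm.ne_zero hBF
      m_dvd_bad := dvd_mul_right m BF
      Q := fun p => primeOf F (A p)
      hQ := fun p => inferInstance
      hmem := fun p => natCast_mem_primeOf F (hA p)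
      hdet := fun p hp => hBFdet p _ p.2 inferInstance
        (natCast_mem_primeOf F (hA p)) fun h => hp (h.mul_left m)
      Fr := fun p => AlgEquiv.restrictNormalHom F (τ p)
      hFr := fun p => frobAt_restrict F (hτ p) }
  obtain ⟨C, hC⟩ := D.exists_sum_ge f hf0 hconj hinv (fun _ => goodSquares m n) fun x c hc => by
    rw [goodSquares, Finset.mem_filter] at hc
    exact ⟨hc.2.1, (orderOf_dvd_natCard x).trans hc.2.2⟩
  set h : ℝ := ((m : ℝ) - 1) / 2 with hh
  have hhpos : 0 < h := by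
    have : (2 : ℝ) < (m : ℝ) := by exact_mod_cast hm2
    linarith
  set S : ℝ := ∑ x, f x with hS
  have hS0 : 0 ≤ S := Finset.sum_nonneg fun x _ => hf0 x
  refine ⟨C / (4 * n * h) + (T.card : ℝ) * S, ?_⟩
  have hlog : ∀ᶠ s in 𝓝[>] (1 : ℝ), 0 ≤ -Real.log (s - 1) := by
    filter_upwards [Ioo_mem_nhdsGT (one_lt_two (α := ℝ))] with s hs
    exact neg_nonneg.2 (Real.log_nonpos (by linarith [hs.1]) (by linarith [hs.2]))
  filter_upwards [hC, hlog, self_mem_nhdsWithin] with s hs hL hs1 g hg0 hgsum hg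
  set L : ℝ := -Real.log (s - 1)
  have hcard : (1 - ε) * h ≤ ((goodSquares m n).card : ℝ) :=
    card_goodSquares_ge hm2 hn0 (Nat.le_add_left 1 t₀) hdvd htε
  rw [← Finset.sum_mul, ← hS] at hs
  have h1 : 4 * (S * ((1 - ε) * h)) * L - C ≤
    4 * (n * h) * D.wsum (fun p => f (D.r (D.Fr p))) s := by
    refine le_trans ?_ (hs.trans_eq ?_)
    · gcongr
    · rw [hh, hn]; ring
  have h2 : (1 - ε) * (S / n) * L - C / (4 * n * h) ≤ D.wsum (fun p => f (D.r (D.Fr p))) s := by
    have hpos : (0 : ℝ) < 4 * (n * h) := by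
      have : (0 : ℝ) < n := by exact_mod_cast hn0
      positivity
    rw [← mul_le_mul_iff_of_pos_left hpos]
    refine le_trans (le_of_eq ?_) h1
    have : (n : ℝ) ≠ 0 := by exact_mod_cast hn0.ne'
    field_simp
  have hle : ∀ p : Nat.Primes, (if (p : ℕ) ∣ D.bad then 0 else
    f (D.r (D.Fr p)) * ((p : ℕ) : ℝ) ^ (-s)) ≤
      g p * ((p : ℕ) : ℝ) ^ (-s) + if (p : ℕ) ∈ T then S else 0 := fun p => by
    have h0 : 0 ≤ ((p : ℕ) : ℝ) ^ (-s) := Real.rpow_nonneg (Nat.cast_nonneg _) _
    split_ifs with hb hT hT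
    · exact add_nonneg (mul_nonneg (hg0 p) h0) hS0
    · simpa using mul_nonneg (hg0 p) h0
    · refine le_trans ?_ (le_add_of_nonneg_left (mul_nonneg (hg0 p) h0))
      refine (mul_le_of_le_one_right (hf0 _) ?_).trans
        (Finset.single_le_sum (fun x _ => hf0 x) (Finset.mem_univ _))
      exact Real.rpow_le_one_of_one_le_of_nonpos (by exact_mod_cast p.2.one_le)
        (by linarith [Set.mem_Ioi.1 hs1])
    · rw [add_zero]
      refine mul_le_mul_of_nonneg_right ?_ h0
      exact (congrArg f (hrσ (τ p))).le.trans (hg p hT (A p) (hA p) (τ p) (hτ p))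
  have hfinT : ({p : Nat.Primes | (p : ℕ) ∈ T}).Finite :=
    T.finite_toSet.preimage Subtype.val_injective.injOn
  have hsumT : Summable fun p : Nat.Primes => if (p : ℕ) ∈ T then S else 0 :=
    summable_of_ne_finset_zero (s := hfinT.toFinset) fun p hp => if_neg (by simpa using hp)
  have h3 : D.wsum (fun p => f (D.r (D.Fr p))) s ≤
      (∑' p : Nat.Primes, g p * ((p : ℕ) : ℝ) ^ (-s)) + (T.card : ℝ) * S := by
    refine (Summable.tsum_le_tsum hle (D.summable_wsum (M := S) (fun p => ?_) hs1)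
      (hgsum.add hsumT)).trans ?_
    · rw [abs_of_nonneg (hf0 _)]
      exact Finset.single_le_sum (fun x _ => hf0 x) (Finset.mem_univ _)
    rw [hgsum.tsum_add hsumT]
    gcongr
    rw [tsum_eq_sum (s := hfinT.toFinset) fun p hp => if_neg (by simpa using hp)]
    refine (Finset.sum_le_card_nsmul _ _ S fun p hp => by rw [if_pos (by simpa using hp)]).trans ?_
    rw [nsmul_eq_mul]
    refine mul_le_mul_of_nonneg_right ?_ hS0
    exact_mod_cast Finset.card_le_card_of_injOn (fun p : Nat.Primes => (p : ℕ))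
      (fun p hp => by simpa using hp) Subtype.val_injective.injOn
  linarith

end Fermat.Agent.DeligneSerre.Cheb
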