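import Fermat.Agent.ExtVanish.ClassZeta

/-!
# Zeta functions of ideal classes twisted by the residue of the norm

For an even multiplicative function `φ` on `ZMod m` the sums `∑_{I ∈ C} φ(NI) (NI)⁻ˢ` are, up to
bounded amounts, multiples of one function of `s`. If `φ` takes a value `≠ 0, 1` at the norm of
some prime, the sum over all classes is bounded as `s → 1⁺`.
-/

set_option autoImplicit false

noncomputable section

namespace Fermat.Agent.DeligneSerre.Cheb

open NumberField NumberField.InfinitePlace NumberField.mixedEmbedding Module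
open NumberField.Units NumberField.Units.dirichletUnitTheorem
open Fermat.Agent.Density Fermat.Agent.ExtVanish MeasureTheory
open scoped Classical nonZeroDivisors

variable {K : Type*} [Field K] [NumberField K] {m : ℕ}

/-- The norm of an element. -/
def natNorm (a : 𝓞 K) : ℕ := Ideal.absNorm (Ideal.span {a})

theorem natNorm_mixedEmbedding (a : 𝓞 K) :
    mixedEmbedding.norm (mixedEmbedding K (a : K)) = (natNorm a : ℝ) :=
  norm_mixedEmbedding_int a

/-- An even function does not see the sign of a norm. -/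
theorem apply_natNorm (φ : MulChar (ZMod m) ℂ) (heven : φ (-1) = 1) (a : 𝓞 K) :
    φ (natNorm a : ZMod m) = φ ((Algebra.norm ℤ a : ℤ) : ZMod m) := by
  rw [natNorm, Ideal.absNorm_span_singleton]
  rcases Int.natAbs_eq (Algebra.norm ℤ a) with h | h
  · conv_rhs => rw [h, Int.cast_natCast]
  · conv_rhs => rw [h, Int.cast_neg, Int.cast_natCast]
    rw [neg_eq_neg_one_mul, map_mul, heven, one_mul]

theorem intCast_norm_congr (x y : 𝓞 K) :
    ((Algebra.norm ℤ (x + m • y) : ℤ) : ZMod m) = ((Algebra.norm ℤ x : ℤ) : ZMod m) := by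
  let b := RingOfIntegers.basis K
  rw [Algebra.norm_eq_matrix_det b, Algebra.norm_eq_matrix_det b,
    ← eq_intCast (Int.castRingHom (ZMod m)),
    ← eq_intCast (Int.castRingHom (ZMod m)), RingHom.map_det, RingHom.map_det, map_add, map_nsmul,
    map_add, map_nsmul, ← Nat.cast_smul_eq_nsmul (ZMod m), ZMod.natCast_self, zero_smul, add_zero]

/-- `∑_{I ∈ C} φ(NI) (NI)⁻ˢ`. -/
def wclassZeta (φ : MulChar (ZMod m) ℂ) (C : ClassGroup (𝓞 K)) (s : ℝ) : ℂ :=
  ∑' I : IdealsInClass K C, φ (Ideal.absNorm (I.1 : Ideal (𝓞 K)) : ZMod m) *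
    (idealWeight s (I.1 : Ideal (𝓞 K)) : ℂ)

theorem norm_apply_le_one [NeZero m] (φ : MulChar (ZMod m) ℂ) (x : ZMod m) : ‖φ x‖ ≤ 1 := by
  by_cases hx : IsUnit x
  · obtain ⟨u, rfl⟩ := hx
    refine le_of_eq (Complex.norm_eq_one_of_pow_eq_one
      (n := Fintype.card (ZMod m)ˣ) ?_ Fintype.card_ne_zero)
    rw [← map_pow, ← Units.val_pow_eq_pow_val, pow_card_eq_one, Units.val_one, map_one]
  · rw [MulChar.map_nonunit φ hx, norm_zero]
    exact zero_le_one

theorem summable_wclass [NeZero m] (φ : MulChar (ZMod m) ℂ) (C : ClassGroup (𝓞 K))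
    {s : ℝ} (hs : 1 < s) :
    Summable fun I : IdealsInClass K C => φ (Ideal.absNorm (I.1 : Ideal (𝓞 K)) : ZMod m) *
      (idealWeight s (I.1 : Ideal (𝓞 K)) : ℂ) := by
  refine Summable.of_norm_bounded (summable_idealWeight_class C hs) fun I => ?_
  rw [norm_mul, Complex.norm_real, Real.norm_of_nonneg (idealWeight_nonneg _ _)]
  exact mul_le_of_le_one_left (idealWeight_nonneg _ _) (norm_apply_le_one φ _)

/-- Unfolding a weighted sum over an ideal into a sum over the ideals of a class. -/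
theorem hasSum_weighted_ideal [NeZero m] (φ : MulChar (ZMod m) ℂ) (J : (Ideal (𝓞 K))⁰)
    {C : ClassGroup (𝓞 K)} (hC : ClassGroup.mk0 J * C = 1) {s : ℝ} (hs : 1 < s) :
    HasSum (fun b : (J : Ideal (𝓞 K)) =>
        φ (natNorm (b : 𝓞 K) : ZMod m) * (coneFun K s (idealEmb b) : ℂ))
      ((Units.torsionOrder K : ℂ) * (φ (Ideal.absNorm (J : Ideal (𝓞 K)) : ZMod m) *
        (idealWeight s (J : Ideal (𝓞 K)) : ℂ) * wclassZeta φ C s)) := by
  have h := hasSum_coneFun_ideal (fun I => φ (Ideal.absNorm I : ZMod m))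
    (fun I => norm_apply_le_one φ _) J hC hs
  simp only [map_mul, Nat.cast_mul, mul_assoc, tsum_mul_left] at h
  rw [mul_comm (φ (Ideal.absNorm (J : Ideal (𝓞 K)) : ZMod m)), mul_assoc]
  exact h

/-- Translating and scaling costs a constant in `1 + ‖·‖`. -/
theorem exists_scale_le [NeZero m] (w : mixedSpace K) :
    ∃ c : ℝ, 0 < c ∧ ∀ x : mixedSpace K, c * (1 + ‖x‖) ≤ 1 + ‖w + (m : ℝ) • x‖ := by
  have hm : (1 : ℝ) ≤ (m : ℝ) := by exact_mod_cast NeZero.one_le
  refine ⟨(1 + ‖w‖)⁻¹, by positivity, fun x => ?_⟩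
  rw [inv_mul_le_iff₀ (by positivity)]
  have h1 : (m : ℝ) * ‖x‖ ≤ ‖w + (m : ℝ) • x‖ + ‖w‖ := by
    rw [← Real.norm_of_nonneg (by linarith : (0:ℝ) ≤ (m : ℝ)), ← _root_.norm_smul]
    simpa using norm_sub_le (w + (m : ℝ) • x) w
  nlinarith [norm_nonneg w, norm_nonneg x, norm_nonneg (w + (m : ℝ) • x)]

/-- The sum of the test function over a translate of `m` times an ideal. -/
theorem exists_coset_sum (K : Type*) [Field K] [NumberField K] (m : ℕ) [NeZero m]
    (J : (Ideal (𝓞 K))⁰) (q : 𝓞 K) (_hq : q ∈ (J : Ideal (𝓞 K))) :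
    ∃ B : ℝ, ∀ s : ℝ, 1 < s → s ≤ 2 →
      Summable (fun c : (J : Ideal (𝓞 K)) =>
        coneFun K s (mixedEmbedding K ((q + m • (c : 𝓞 K) : 𝓞 K) : K))) ∧
      |((Ideal.absNorm (J : Ideal (𝓞 K)) : ℝ) * ((2⁻¹ : ℝ) ^ nrComplexPlaces K * √|(discr K : ℝ)|) *
          (m : ℝ) ^ finrank ℚ K) *
        (∑' c : (J : Ideal (𝓞 K)), coneFun K s (mixedEmbedding K ((q + m • (c : 𝓞 K) : 𝓞 K) : K))) -
        ∫ x, coneFunCut K s x| ≤ B := by
  set L := mixedEmbedding.idealLattice K (FractionalIdeal.mk0 K J) with hL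
  let e : ↥(J : Ideal (𝓞 K)) → L := idealToLattice J
  have he : Function.Bijective e := bijective_idealToLattice J
  set w : mixedSpace K := mixedEmbedding K (q : K) with hw
  have hval : ∀ c : (J : Ideal (𝓞 K)),
      mixedEmbedding K ((q + m • (c : 𝓞 K) : 𝓞 K) : K) = w + (m : ℝ) • (e c : mixedSpace K) := by
    intro c
    rw [Nat.cast_smul_eq_nsmul ℝ]
    simp only [e, idealToLattice, idealEmb, hw, map_add, map_nsmul]
  set n : ℝ := (finrank ℚ K : ℝ) with hn
  have hn0 : 0 < n := Nat.cast_pos.mpr finrank_pos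
  have hm0 : (0 : ℝ) < (m : ℝ) := by exact_mod_cast NeZero.pos m
  obtain ⟨D, B, hD, hlat⟩ := exists_abs_covolume_mul_tsum_sub_integral_le volume L
  obtain ⟨A, hA, hdec⟩ := exists_coneFunCut_le K
  obtain ⟨M₀, hM₀, hlip⟩ := exists_coneFunCut_lipschitz K ((m : ℝ) * D) (by positivity)
  obtain ⟨c, hc0, hscale⟩ := exists_scale_le (m := m) w
  set M' : ℝ := M₀ * c ^ (-(n + 1)) with hM'
  set N : ℝ := (Ideal.absNorm (J : Ideal (𝓞 K)) : ℝ) with hN
  set c₀ : ℝ := (2⁻¹ : ℝ) ^ nrComplexPlaces K * √|(discr K : ℝ)| with hc₀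
  have hcov : ZLattice.covolume L volume = N * c₀ := by
    rw [hL, covolume_idealLattice, FractionalIdeal.coe_mk0, FractionalIdeal.coeIdeal_absNorm]
    push_cast
    rw [hN, mul_assoc]
  have hfin : Set.Finite {v : L | ‖w + (m : ℝ) • (v : mixedSpace K)‖ ≤ 2} := by
    have H : IsClosed (X := mixedSpace K) L := @AddSubgroup.isClosed_of_discrete _ _ _ _ _
      L.toAddSubgroup (inferInstance : DiscreteTopology L)
    refine ((Metric.finite_isBounded_inter_isClosed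
      (isDiscrete_iff_discreteTopology.mpr (inferInstance : DiscreteTopology L))
      (Metric.isBounded_closedBall (x := (0 : mixedSpace K))
        (r := (2 + ‖w‖) / (m : ℝ))) H).preimage_embedding
        (.subtype _)).subset ?_
    intro v hv
    refine ⟨mem_closedBall_zero_iff.mpr ((le_div_iff₀ hm0).mpr ?_), v.2⟩
    have h1 : (m : ℝ) * ‖(v : mixedSpace K)‖ ≤ ‖w + (m : ℝ) • (v : mixedSpace K)‖ + ‖w‖ := by
      rw [← Real.norm_of_nonneg hm0.le, ← _root_.norm_smul]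
      simpa using norm_sub_le (w + (m : ℝ) • (v : mixedSpace K)) w
    have : ‖w + (m : ℝ) • (v : mixedSpace K)‖ ≤ 2 := hv
    show ‖(v : mixedSpace K)‖ * (m : ℝ) ≤ _
    linarith
  refine ⟨(M' * B) * (m : ℝ) ^ finrank ℚ K + N * c₀ * (m : ℝ) ^ finrank ℚ K * hfin.toFinset.card,
    fun s hs hs2 => ?_⟩
  set f : L → ℝ := fun v => coneFun K s (w + (m : ℝ) • (v : mixedSpace K)) with hf
  set g : L → ℝ := fun v => coneFunCut K s (w + (m : ℝ) • (v : mixedSpace K)) with hg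
  have hsum_g : Summable g := by
    refine Summable.of_nonneg_of_le (fun v => coneFunCut_nonneg _ _) (fun v => ?_)
      ((summable_one_add_norm_rpow L (r := n * s) (by
        rw [mixedEmbedding.finrank, ← hn]; nlinarith)).mul_left (A * c ^ (-(n * s))))
    refine (hdec s ⟨hs.le, hs2⟩ _).trans ?_
    rw [mul_assoc, ← Real.mul_rpow hc0.le (by positivity)]
    exact mul_le_mul_of_nonneg_left
      (Real.rpow_le_rpow_of_nonpos (by positivity) (hscale _) (by nlinarith)) hA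
  have hout : ∀ v ∉ hfin.toFinset, f v = g v := by
    intro v hv
    rw [Set.Finite.mem_toFinset, Set.mem_ofPred_eq, not_le] at hv
    simp only [hf, hg, coneFunCut]
    rw [cutoff_eq_one hv.le, one_mul]
  have hsum_d : Summable fun v => f v - g v :=
    summable_of_ne_finset_zero (s := hfin.toFinset) fun v hv => by rw [hout v hv, sub_self]
  have hsum_f : Summable f := (hsum_d.add hsum_g).congr fun v => by ring
  have hfe : ∀ cc : (J : Ideal (𝓞 K)),
      coneFun K s (mixedEmbedding K ((q + m • (cc : 𝓞 K) : 𝓞 K) : K)) = f (e cc) := fun cc => by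
    rw [hval]
  simp only [hfe]
  refine ⟨hsum_f.comp_injective he.1, ?_⟩
  rw [show ∑' cc, f (e cc) = ∑' v, f v from (Equiv.ofBijective e he).tsum_eq f]
  have hint : Integrable fun x : mixedSpace K => coneFunCut K s (w + (m : ℝ) • x) :=
    (integrable_comp_smul_iff volume (fun y : mixedSpace K => coneFunCut K s (w + y)) hm0.ne').mpr
      ((integrable_coneFunCut hs hs2).comp_add_left w)
  have hmain := hlat (fun x => coneFunCut K s (w + (m : ℝ) • x)) M' (by positivity) hint hsum_g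
    fun x y hxy => by
      refine (hlip s ⟨hs.le, hs2⟩ (w + (m : ℝ) • x) (w + (m : ℝ) • y) ?_).trans ?_
      · rw [add_sub_add_left_eq_sub, ← smul_sub, _root_.norm_smul, Real.norm_of_nonneg hm0.le]
        exact mul_le_mul_of_nonneg_left hxy hm0.le
      · rw [mixedEmbedding.finrank, ← hn, hM', mul_assoc,
          ← Real.mul_rpow hc0.le (by positivity)]
        exact mul_le_mul_of_nonneg_left
          (Real.rpow_le_rpow_of_nonpos (by positivity) (hscale x) (by linarith)) hM₀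
  have hI : ∫ x : mixedSpace K, coneFunCut K s (w + (m : ℝ) • x) =
      ((m : ℝ) ^ finrank ℚ K)⁻¹ * ∫ x, coneFunCut K s x := by
    rw [Measure.integral_comp_smul volume (fun y : mixedSpace K => coneFunCut K s (w + y)),
      mixedEmbedding.finrank, smul_eq_mul, integral_add_left_eq_self (coneFunCut K s) w,
      abs_of_pos (by positivity)]
  rw [hI, hcov] at hmain
  have hdiff : |∑' v, f v - ∑' v, g v| ≤ hfin.toFinset.card := by
    rw [← Summable.tsum_sub hsum_f hsum_g, tsum_eq_sum (s := hfin.toFinset) (fun v hv => by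
      rw [hout v hv, sub_self])]
    refine (Finset.abs_sum_le_sum_abs _ _).trans ((Finset.sum_le_card_nsmul _ _ (1 : ℝ)
      fun v _ => ?_).trans_eq (by simp))
    have h0 : 0 ≤ f v := coneFun_nonneg _ _
    have h1 : f v ≤ 1 := by
      obtain ⟨cc, rfl⟩ := he.2 v
      rw [← hfe, coneFun]
      set y := mixedEmbedding K ((q + m • (cc : 𝓞 K) : 𝓞 K) : K) with hy
      by_cases hφ : unitWeight K y = 0
      · rw [hφ, zero_mul]; exact zero_le_one
      have hne := norm_ne_zero_of_unitWeight_ne_zero hφ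
      rw [hy, natNorm_mixedEmbedding, Nat.cast_ne_zero] at hne
      calc unitWeight K y * mixedEmbedding.norm y ^ (-s) ≤ 1 * 1 := by
            refine mul_le_mul (unitWeight_le_one _) ?_
              (Real.rpow_nonneg (mixedEmbedding.norm_nonneg _) _) zero_le_one
            rw [hy, natNorm_mixedEmbedding]
            exact Real.rpow_le_one_of_one_le_of_nonpos
              (by exact_mod_cast Nat.one_le_iff_ne_zero.mpr hne) (by linarith)
        _ = 1 := one_mul 1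
    have h2 : g v ≤ f v := mul_le_of_le_one_left h0 (cutoff_mem _).2
    have h3 : 0 ≤ g v := coneFunCut_nonneg _ _
    rw [abs_of_nonneg (by linarith)]
    linarith
  set P := (m : ℝ) ^ finrank ℚ K
  have hP : 0 < P := by positivity
  set I := ∫ x, coneFunCut K s x
  set F := ∑' v, f v
  set G := ∑' v : L, coneFunCut K s (w + (m : ℝ) • (v : mixedSpace K))
  have hFG : |F - G| ≤ hfin.toFinset.card := hdiff
  have h1 : |N * c₀ * P * G - I| ≤ M' * B * P := by
    have := mul_le_mul_of_nonneg_right hmain hP.le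
    rw [← abs_of_pos hP, ← abs_mul, abs_of_pos hP] at this
    rw [show N * c₀ * P * G - I = (N * c₀ * G - P⁻¹ * I) * P by field_simp]
    exact this
  have hNc : 0 ≤ N * c₀ * P := by positivity
  calc |N * c₀ * P * F - I| ≤ |N * c₀ * P * F - N * c₀ * P * G| + |N * c₀ * P * G - I| :=
        abs_sub_le _ _ _
    _ ≤ _ := by
        rw [← mul_sub, abs_mul, abs_of_nonneg hNc]
        linarith [mul_le_mul_of_nonneg_left hFG hNc]

variable (m) in
/-- `m J` inside `J`. -/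
def mulSub (J : Ideal (𝓞 K)) : AddSubgroup J :=
  (nsmulAddMonoidHom (α := J) m).range

omit [NumberField K] in
theorem mem_mulSub {J : Ideal (𝓞 K)} {b : J} : b ∈ mulSub m J ↔ ∃ c : J, m • c = b := Iff.rfl

theorem finite_quotient_mulSub [NeZero m] (J : Ideal (𝓞 K)) : Finite (J ⧸ mulSub m J) := by
  rcases eq_or_ne J ⊥ with rfl | hJ
  · infer_instance
  have hI0 : Ideal.span {(m : 𝓞 K)} * J ≠ ⊥ := mul_ne_zero
    (by simp [NeZero.ne m]) hJ
  have : Finite (𝓞 K ⧸ Ideal.span {(m : 𝓞 K)} * J) :=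
    Ideal.finiteQuotientOfFreeOfNeBot _ hI0
  let f : J →+ 𝓞 K ⧸ Ideal.span {(m : 𝓞 K)} * J :=
    (Ideal.Quotient.mk _).toAddMonoidHom.comp (J.subtype.toAddMonoidHom)
  have hker : f.ker = mulSub m J := by
    ext b
    rw [AddMonoidHom.mem_ker, mem_mulSub]
    show Ideal.Quotient.mk _ (b : 𝓞 K) = 0 ↔ _
    rw [Ideal.Quotient.eq_zero_iff_mem, Ideal.mem_span_singleton_mul]
    constructor
    · rintro ⟨c, hc, h⟩
      exact ⟨⟨c, hc⟩, Subtype.ext (by simpa [nsmul_eq_mul] using h)⟩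
    · rintro ⟨c, rfl⟩
      exact ⟨c, c.2, by simp [nsmul_eq_mul]⟩
  rw [← hker]
  exact Finite.of_injective _ (QuotientAddGroup.kerLift_injective f)

variable (m) in
/-- The sum of `φ(N b)` over `J / m J`. -/
def residueSum [NeZero m] (φ : MulChar (ZMod m) ℂ) (J : Ideal (𝓞 K)) : ℂ :=
  haveI := finite_quotient_mulSub (m := m) J
  haveI := Fintype.ofFinite (J ⧸ mulSub m J)
  ∑ x : J ⧸ mulSub m J, φ (natNorm ((x.out : J) : 𝓞 K) : ZMod m)

theorem apply_natNorm_add (φ : MulChar (ZMod m) ℂ) (heven : φ (-1) = 1) (x y : 𝓞 K) :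
    φ (natNorm (x + m • y) : ZMod m) = φ (natNorm x : ZMod m) := by
  rw [apply_natNorm φ heven, apply_natNorm φ heven, intCast_norm_congr]

/-- `J` as pairs of a residue modulo `m J` and an element. -/
theorem bijective_residue [NeZero m] (J : Ideal (𝓞 K)) :
    Function.Bijective fun p : (J ⧸ mulSub m J) × J => p.1.out + m • p.2 := by
  have hmk : ∀ (x : J ⧸ mulSub m J) (c : J),
      ((x.out + m • c : J) : J ⧸ mulSub m J) = x := fun x c => by
    rw [QuotientAddGroup.mk_add, QuotientAddGroup.out_eq',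
      (QuotientAddGroup.eq_zero_iff _).2 (mem_mulSub.2 ⟨c, rfl⟩), add_zero]
  refine ⟨fun ⟨x, c⟩ ⟨x', c'⟩ h => ?_, fun b => ?_⟩
  · simp only at h
    obtain rfl : x = x' := by rw [← hmk x c, h, hmk]
    refine Prod.ext rfl (Subtype.ext ?_)
    have h2 := congrArg (fun z : J => (z : 𝓞 K)) (add_left_cancel h)
    simp only [Submodule.coe_smul_of_tower, nsmul_eq_mul] at h2
    exact mul_left_cancel₀ (Nat.cast_ne_zero.mpr (NeZero.ne m)) h2
  · have h1 : -((b : J ⧸ mulSub m J).out) + b ∈ mulSub m J :=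
      QuotientAddGroup.eq.1 (QuotientAddGroup.out_eq' _)
    obtain ⟨c, hc⟩ := mem_mulSub.1 h1
    exact ⟨((b : J ⧸ mulSub m J), c), by simp only; rw [hc, add_neg_cancel_left]⟩

theorem exists_integral_le (K : Type*) [Field K] [NumberField K] :
    ∃ A : ℝ, ∀ᶠ s in nhdsWithin (1 : ℝ) (Set.Ioi 1), (s - 1) * |∫ x, coneFunCut K s x| ≤ A := by
  obtain ⟨M, hM⟩ := exists_classZeta_sub_integral_le K 1
  obtain ⟨C₁, hC₁⟩ := eventually_abs_primeTerm_add_log_le K
  refine ⟨classConst K * Real.exp (C₁ + 3 * (Module.finrank ℚ K * primeSqSum)) + |M|, ?_⟩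
  filter_upwards [hC₁, Ioo_mem_nhdsGT (one_lt_two (α := ℝ))] with s hs hs12
  have hs1 : 1 < s := hs12.1
  have hz0 : 0 ≤ classZeta K 1 s := tsum_nonneg fun I => idealWeight_nonneg _ _
  have hz : classZeta K 1 s ≤ ∑' n, zetaTerm K s n := by
    refine Real.tsum_le_of_sum_le (fun I => idealWeight_nonneg _ _) fun T => ?_
    rw [← Finset.sum_image (g := fun I : IdealsInClass K 1 => (I.1 : Ideal (𝓞 K)))
      (f := idealWeight s) (fun I _ J _ h => Subtype.ext (Subtype.ext h))]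
    exact sum_idealWeight_le_tsum_zetaTerm hs1 _
  have h2 : (s - 1) * classZeta K 1 s ≤ Real.exp (C₁ + 3 * (Module.finrank ℚ K * primeSqSum)) := by
    have h3 := hz.trans (tsum_zetaTerm_le hs1)
    have h4 : ∑' p, primeTerm K s p ≤ -Real.log (s - 1) + C₁ := by linarith [(abs_le.1 hs).2]
    calc (s - 1) * classZeta K 1 s ≤ Real.exp (Real.log (s - 1)) *
          Real.exp (-Real.log (s - 1) + C₁ + 3 * (Module.finrank ℚ K * primeSqSum)) := by
          rw [Real.exp_log (by linarith)]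
          refine mul_le_mul_of_nonneg_left (h3.trans (Real.exp_le_exp.2 ?_)) (by linarith)
          linarith
      _ = _ := by rw [← Real.exp_add]; congr 1; ring
  have h5 := hM s hs1 hs12.2.le
  have h6 : |∫ x, coneFunCut K s x| ≤ classConst K * classZeta K 1 s + |M| := by
    rw [abs_sub_comm] at h5
    have h7 := abs_sub_abs_le_abs_sub (∫ x, coneFunCut K s x) (classConst K * classZeta K 1 s)
    rw [abs_of_nonneg (mul_nonneg (classConst_pos K).le hz0)] at h7
    linarith [le_abs_self M]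
  calc (s - 1) * |∫ x, coneFunCut K s x| ≤ (s - 1) * (classConst K * classZeta K 1 s + |M|) :=
        mul_le_mul_of_nonneg_left h6 (by linarith)
    _ = classConst K * ((s - 1) * classZeta K 1 s) + (s - 1) * |M| := by ring
    _ ≤ _ := by
        refine add_le_add (mul_le_mul_of_nonneg_left h2 (classConst_pos K).le) ?_
        exact mul_le_of_le_one_left (abs_nonneg M) (by linarith [hs12.2])

/-- The main term of a class: `φ(NJ)⁻¹ ∑_{b ∈ J/mJ} φ(Nb)`. -/
def mainCoeff [NeZero m] (φ : MulChar (ZMod m) ℂ) (J : Ideal (𝓞 K)) : ℂ :=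
  (φ (Ideal.absNorm J : ZMod m))⁻¹ * residueSum m φ J

theorem abs_rpow_sub_one_le {N : ℝ} (hN : 1 ≤ N) {s : ℝ} (hs : 1 < s) (hs2 : s ≤ 2) :
    |N ^ (s - 1) - 1| ≤ (s - 1) * (N * N) := by
  have hu : (0 : ℝ) ≤ s - 1 := by linarith
  have h1 : (1 : ℝ) ≤ N ^ (s - 1) := Real.one_le_rpow hN hu
  rw [abs_of_nonneg (by linarith)]
  have h2 := rpow_one_add_le_one_add_mul_self (p := s - 1) (by linarith : (-1 : ℝ) ≤ N - 1) hu
    (by linarith)
  simp only [add_sub_cancel] at h2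
  nlinarith

/-- A twisted class zeta function is, up to a bounded amount, its main term times a function
of `s`. -/
theorem exists_wclassZeta_sub_le [NeZero m] (φ : MulChar (ZMod m) ℂ) (heven : φ (-1) = 1)
    (J : (Ideal (𝓞 K))⁰) (hJ : φ (Ideal.absNorm (J : Ideal (𝓞 K)) : ZMod m) ≠ 0) :
    ∃ B : ℝ, ∀ᶠ s in nhdsWithin (1 : ℝ) (Set.Ioi 1),
      ‖((classConst K * (m : ℝ) ^ finrank ℚ K : ℝ) : ℂ) * wclassZeta φ (ClassGroup.mk0 J)⁻¹ s -
        mainCoeff φ (J : Ideal (𝓞 K)) * ((∫ x, coneFunCut K s x : ℝ) : ℂ)‖ ≤ B := by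
  have := finite_quotient_mulSub (m := m) (J : Ideal (𝓞 K))
  have := Fintype.ofFinite ((J : Ideal (𝓞 K)) ⧸ mulSub m (J : Ideal (𝓞 K)))
  set Q := (J : Ideal (𝓞 K)) ⧸ mulSub m (J : Ideal (𝓞 K))
  choose B hB using fun x : Q =>
    exists_coset_sum K m J ((x.out : (J : Ideal (𝓞 K))) : 𝓞 K) (x.out).2
  obtain ⟨A, hA⟩ := exists_integral_le K
  set N : ℝ := (Ideal.absNorm (J : Ideal (𝓞 K)) : ℝ) with hN
  have hN1 : 1 ≤ N := by
    rw [hN]; exact_mod_cast Nat.one_le_iff_ne_zero.mpr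
      (Ideal.absNorm_ne_zero_of_nonZeroDivisors J)
  set φJ : ℂ := φ (Ideal.absNorm (J : Ideal (𝓞 K)) : ZMod m)
  set S₀ : ℂ := residueSum m φ (J : Ideal (𝓞 K))
  refine ⟨‖φJ⁻¹‖ * (N * (∑ x : Q, |B x|) + ‖S₀‖ * (N * N * max A 0)), ?_⟩
  filter_upwards [hA, Ioo_mem_nhdsGT (one_lt_two (α := ℝ))] with s hAs hs12
  have hs : 1 < s := hs12.1
  have hsum := hasSum_weighted_ideal φ J (C := (ClassGroup.mk0 J)⁻¹) (mul_inv_cancel _) hs
  set c₀ : ℝ := (2⁻¹ : ℝ) ^ nrComplexPlaces K * √|(discr K : ℝ)| with hc₀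
  set P : ℝ := (m : ℝ) ^ finrank ℚ K
  set I : ℝ := ∫ x, coneFunCut K s x
  set T : Q → ℝ := fun x => ∑' c : (J : Ideal (𝓞 K)),
    coneFun K s (mixedEmbedding K ((((x.out : (J : Ideal (𝓞 K))) : 𝓞 K) + m • (c : 𝓞 K) : 𝓞 K) : K))
  have hdecomp : HasSum (fun b : (J : Ideal (𝓞 K)) =>
      φ (natNorm (b : 𝓞 K) : ZMod m) * (coneFun K s (idealEmb b) : ℂ))
      (∑ x : Q, φ (natNorm ((x.out : (J : Ideal (𝓞 K))) : 𝓞 K) : ZMod m) * (T x : ℂ)) := by
    have hfib : ∀ x : Q, HasSum (fun c : (J : Ideal (𝓞 K)) =>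
        φ (natNorm ((x.out + m • c : (J : Ideal (𝓞 K))) : 𝓞 K) : ZMod m) *
          (coneFun K s (idealEmb (x.out + m • c)) : ℂ))
        (φ (natNorm ((x.out : (J : Ideal (𝓞 K))) : 𝓞 K) : ZMod m) * (T x : ℂ)) := fun x => by
      refine ((Complex.hasSum_ofReal.mpr ((hB x s hs hs12.2.le).1).hasSum).mul_left _).congr_fun
        fun c => ?_
      rw [Submodule.coe_add, Submodule.coe_smul_of_tower, apply_natNorm_add φ heven]
      rfl
    rw [← (Equiv.ofBijective _ (bijective_residue (m := m) (J : Ideal (𝓞 K)))).hasSum_iff]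
    have hs' : Summable fun p : Q × (J : Ideal (𝓞 K)) =>
        φ (natNorm ((p.1.out + m • p.2 : (J : Ideal (𝓞 K))) : 𝓞 K) : ZMod m) *
          (coneFun K s (idealEmb (p.1.out + m • p.2)) : ℂ) :=
      hsum.summable.comp_injective (bijective_residue (m := m) (J : Ideal (𝓞 K))).1
    have h := hs'.hasSum
    rwa [(h.prod_fiberwise hfib).unique (hasSum_fintype _)] at h
  have heq := hsum.unique hdecomp
  set X : ℂ := ∑ x : Q, φ (natNorm ((x.out : (J : Ideal (𝓞 K))) : 𝓞 K) : ZMod m) * (T x : ℂ)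
  have h1 : ‖((N * c₀ * P : ℝ) : ℂ) * X - S₀ * (I : ℂ)‖ ≤ ∑ x : Q, |B x| := by
    have hS₀ : S₀ = ∑ x : Q, φ (natNorm ((x.out : (J : Ideal (𝓞 K))) : 𝓞 K) : ZMod m) := by
      simp only [S₀, residueSum]
      convert rfl
    rw [Finset.mul_sum, hS₀, Finset.sum_mul, ← Finset.sum_sub_distrib]
    refine (norm_sum_le _ _).trans (Finset.sum_le_sum fun x _ => ?_)
    rw [mul_left_comm, ← mul_sub, norm_mul, ← Complex.ofReal_mul, ← Complex.ofReal_sub,
      Complex.norm_real, Real.norm_eq_abs]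
    refine (mul_le_of_le_one_left (abs_nonneg _) (norm_apply_le_one φ _)).trans ?_
    exact ((hB x s hs hs12.2.le).2).trans (le_abs_self _)
  have hNs : N ^ (s - 1) ≤ N := by
    calc N ^ (s - 1) ≤ N ^ (1 : ℝ) := Real.rpow_le_rpow_of_exponent_le hN1 (by linarith [hs12.2])
      _ = N := Real.rpow_one N
  have hw : idealWeight s (J : Ideal (𝓞 K)) * (N * N ^ (s - 1)) = 1 := by
    rw [idealWeight, ← hN]
    conv_lhs => rw [← mul_assoc, mul_comm (N ^ (-s)) N]
    rw [mul_assoc, ← Real.rpow_add (by linarith), show -s + (s - 1) = -1 by ring,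
      Real.rpow_neg_one, mul_inv_cancel₀ (by linarith)]
  have key : ((classConst K * P : ℝ) : ℂ) * wclassZeta φ (ClassGroup.mk0 J)⁻¹ s =
      φJ⁻¹ * ((N ^ (s - 1) : ℝ) : ℂ) * (((N * c₀ * P : ℝ) : ℂ) * X) := by
    rw [← heq, classConst, ← hc₀]
    have hw' : ((idealWeight s (J : Ideal (𝓞 K)) : ℝ) : ℂ) *
      ((N : ℂ) * ((N ^ (s - 1) : ℝ) : ℂ)) = 1 := by
      exact_mod_cast congrArg (fun r : ℝ => (r : ℂ)) hw
    push_cast
    field_simp
    linear_combination (-((c₀ : ℂ) * (P : ℂ) * (Units.torsionOrder K : ℂ) * φJ *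
      wclassZeta φ (ClassGroup.mk0 J)⁻¹ s)) * hw'
  rw [key, show mainCoeff φ (J : Ideal (𝓞 K)) = φJ⁻¹ * S₀ from rfl, mul_assoc φJ⁻¹,
    mul_assoc φJ⁻¹, ← mul_sub, norm_mul]
  refine mul_le_mul_of_nonneg_left ?_ (norm_nonneg _)
  have h2 : ((N ^ (s - 1) : ℝ) : ℂ) * (((N * c₀ * P : ℝ) : ℂ) * X) - S₀ * (I : ℂ) =
      ((N ^ (s - 1) : ℝ) : ℂ) * (((N * c₀ * P : ℝ) : ℂ) * X - S₀ * (I : ℂ)) +
        S₀ * ((((N ^ (s - 1) - 1) * I : ℝ)) : ℂ) := by push_cast; ring
  rw [h2]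
  refine (norm_add_le _ _).trans (add_le_add ?_ ?_)
  · rw [norm_mul, Complex.norm_real, Real.norm_of_nonneg (Real.rpow_nonneg (by linarith) _)]
    exact mul_le_mul hNs h1 (norm_nonneg _) (by linarith)
  · rw [norm_mul, Complex.norm_real, Real.norm_eq_abs, abs_mul]
    refine mul_le_mul_of_nonneg_left ?_ (norm_nonneg _)
    calc |N ^ (s - 1) - 1| * |I| ≤ (s - 1) * (N * N) * |I| :=
          mul_le_mul_of_nonneg_right (abs_rpow_sub_one_le hN1 hs hs12.2.le) (abs_nonneg _)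
      _ = N * N * ((s - 1) * |I|) := by ring
      _ ≤ _ := mul_le_mul_of_nonneg_left (hAs.trans (le_max_left _ _)) (by positivity)

/-- The main term is multiplied by `φ(NP)⁻¹` by a prime `P` not containing `m`. -/
theorem residueSum_mul [NeZero m] (φ : MulChar (ZMod m) ℂ) (heven : φ (-1) = 1)
    (J P : Ideal (𝓞 K)) {u v : 𝓞 K} (hu : u ∈ P) (huv : u + v * (m : 𝓞 K) = 1) :
    residueSum m φ (J * P) = residueSum m φ J := by
  have := finite_quotient_mulSub (m := m) (J * P)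
  have := finite_quotient_mulSub (m := m) J
  let := Fintype.ofFinite ((J * P : Ideal (𝓞 K)) ⧸ mulSub m (J * P))
  let := Fintype.ofFinite (J ⧸ mulSub m J)
  let ι : (J * P : Ideal (𝓞 K)) →+ J :=
    { toFun := fun b => ⟨(b : 𝓞 K), Ideal.mul_le_left b.2⟩
      map_zero' := rfl
      map_add' := fun _ _ => rfl }
  let f := QuotientAddGroup.map (mulSub m (J * P)) (mulSub m J) ι (by
    rintro b ⟨c, rfl⟩
    exact ⟨ι c, (map_nsmul ι m c).symm⟩)
  have hf : Function.Bijective f := by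
    refine ⟨(injective_iff_map_eq_zero f).2 fun x hx => ?_, fun y => ?_⟩
    · obtain ⟨b, rfl⟩ := QuotientAddGroup.mk_surjective x
      rw [QuotientAddGroup.map_mk, QuotientAddGroup.eq_zero_iff] at hx
      obtain ⟨c, hc⟩ := mem_mulSub.1 hx
      have hc' : (m : 𝓞 K) * (c : 𝓞 K) = (b : 𝓞 K) := by
        rw [← nsmul_eq_mul]
        exact congrArg Subtype.val hc
      refine (QuotientAddGroup.eq_zero_iff b).2 (mem_mulSub.2 ⟨⟨(c : 𝓞 K), ?_⟩, ?_⟩)
      · have h1 : (c : 𝓞 K) = (c : 𝓞 K) * u + v * (b : 𝓞 K) := by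
          rw [← hc']
          linear_combination (-(c : 𝓞 K)) * huv
        rw [h1]
        exact add_mem (Ideal.mul_mem_mul c.2 hu) (Ideal.mul_mem_left _ _ b.2)
      · exact Subtype.ext (by rw [Submodule.coe_smul_of_tower, nsmul_eq_mul]; exact hc')
    · obtain ⟨b, rfl⟩ := QuotientAddGroup.mk_surjective y
      refine ⟨((⟨(b : 𝓞 K) * u, Ideal.mul_mem_mul b.2 hu⟩ : (J * P : Ideal (𝓞 K))) :
        (J * P : Ideal (𝓞 K)) ⧸ mulSub m (J * P)), ?_⟩
      rw [QuotientAddGroup.map_mk, QuotientAddGroup.eq]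
      refine mem_mulSub.2 ⟨⟨v * (b : 𝓞 K), Ideal.mul_mem_left _ _ b.2⟩, Subtype.ext ?_⟩
      rw [Submodule.coe_smul_of_tower, nsmul_eq_mul, Submodule.coe_add, Submodule.coe_neg]
      show (m : 𝓞 K) * (v * (b : 𝓞 K)) = -((b : 𝓞 K) * u) + (b : 𝓞 K)
      linear_combination (b : 𝓞 K) * huv
  unfold residueSum
  refine Fintype.sum_bijective (M := ℂ) f hf _ _ fun x => ?_
  have h1 : f x = ((ι x.out : J) : J ⧸ mulSub m J) := by
    conv_lhs => rw [← QuotientAddGroup.out_eq' x]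
    rfl
  rw [h1]
  obtain ⟨c, hc⟩ := mem_mulSub.1 (QuotientAddGroup.eq.1
    (QuotientAddGroup.out_eq' ((ι x.out : J) : J ⧸ mulSub m J)))
  have h2 : ((ι x.out : J) : 𝓞 K) =
      ((((ι x.out : J) : J ⧸ mulSub m J).out : J) : 𝓞 K) + m • (c : 𝓞 K) := by
    rw [← Submodule.coe_smul_of_tower, hc, Submodule.coe_add, Submodule.coe_neg]
    abel
  change φ (natNorm ((ι x.out : J) : 𝓞 K) : ZMod m) = _
  rw [h2, apply_natNorm_add φ heven]

/-- Every class contains an ideal prime to `m`. -/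
theorem exists_coprime_rep (hm : m.Prime) (φ : MulChar (ZMod m) ℂ) (C : ClassGroup (𝓞 K)) :
    ∃ J : (Ideal (𝓞 K))⁰, ClassGroup.mk0 J = C ∧
      φ (Ideal.absNorm (J : Ideal (𝓞 K)) : ZMod m) ≠ 0 := by
  obtain ⟨J₀, hJ₀⟩ := ClassGroup.mk0_surjective C⁻¹
  have hle : (J₀ : Ideal (𝓞 K)) * Ideal.span {(m : 𝓞 K)} ≤ (J₀ : Ideal (𝓞 K)) := Ideal.mul_le_left
  have hne : (J₀ : Ideal (𝓞 K)) * Ideal.span {(m : 𝓞 K)} ≠ ⊥ :=
    mul_ne_zero (nonZeroDivisors.coe_ne_zero J₀) (by simp [hm.ne_zero])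
  obtain ⟨a, ha⟩ := IsDedekindDomain.exists_sup_span_eq hle hne
  have haJ : a ∈ (J₀ : Ideal (𝓞 K)) := ha ▸ Ideal.mem_sup_right (Ideal.mem_span_singleton_self a)
  obtain ⟨I, hI⟩ := Ideal.dvd_iff_le.mpr ((Ideal.span_singleton_le_iff_mem _).mpr haJ)
  have hcop : Ideal.span {(m : 𝓞 K)} ⊔ I = ⊤ := by
    rw [hI, ← Ideal.mul_sup] at ha
    rw [← Ideal.one_eq_top]
    exact mul_left_cancel₀ (nonZeroDivisors.coe_ne_zero J₀) (ha.trans (mul_one _).symm)
  obtain ⟨x, hx, y, hy, hxy⟩ := Submodule.mem_sup.1 (hcop ▸ Submodule.mem_top : (1 : 𝓞 K) ∈ _)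
  obtain ⟨v, rfl⟩ := Ideal.mem_span_singleton'.1 hx
  have hy' : y = 1 + m • (-v) := by
    rw [nsmul_eq_mul]
    linear_combination hxy
  have hNy : IsUnit ((Algebra.norm ℤ y : ℤ) : ZMod m) := by
    rw [hy', intCast_norm_congr, map_one, Int.cast_one]
    exact isUnit_one
  have hdvd : Ideal.absNorm I ∣ natNorm y :=
    Ideal.absNorm_dvd_absNorm_of_le ((Ideal.span_singleton_le_iff_mem _).2 hy)
  have hNu : IsUnit (natNorm y : ZMod m) := by
    rw [natNorm, Ideal.absNorm_span_singleton]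
    rcases Int.natAbs_eq (Algebra.norm ℤ y) with h | h <;> rw [h] at hNy
    · simpa using hNy
    · simpa using hNy
  have hIu : IsUnit (Ideal.absNorm I : ZMod m) := by
    obtain ⟨k, hk⟩ := hdvd
    rw [hk, Nat.cast_mul] at hNu
    exact isUnit_of_mul_isUnit_left hNu
  have hI0 : I ∈ (Ideal (𝓞 K))⁰ := mem_nonZeroDivisors_iff_ne_zero.mpr fun h => by
    have : Fact m.Prime := ⟨hm⟩
    rw [h, Ideal.zero_eq_bot, Ideal.absNorm_bot, Nat.cast_zero] at hIu
    exact not_isUnit_zero hIu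
  refine ⟨⟨I, hI0⟩, ?_, (hIu.map φ).ne_zero⟩
  have ha0 : a ≠ 0 := by
    rintro rfl
    rw [Ideal.span_singleton_eq_bot.2 rfl, eq_comm] at hI
    exact mul_ne_zero (nonZeroDivisors.coe_ne_zero J₀) (nonZeroDivisors.ne_zero hI0) hI
  have h1 : ClassGroup.mk0 (J₀ * ⟨I, hI0⟩) = 1 :=
    (ClassGroup.mk0_eq_one_iff _).mpr ⟨a, by show (J₀ : Ideal (𝓞 K)) * I = _; rw [← hI]⟩
  rw [map_mul, hJ₀, inv_mul_eq_one] at h1
  exact h1.symm

/-- The twisted zeta function is bounded as soon as one prime has a nontrivial value. -/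
theorem exists_wzeta_bound [Fact m.Prime] (φ : MulChar (ZMod m) ℂ) (heven : φ (-1) = 1)
    (P : Ideal (𝓞 K)) (hP : P.IsPrime) (hP0 : φ (Ideal.absNorm P : ZMod m) ≠ 0)
    (hP1 : φ (Ideal.absNorm P : ZMod m) ≠ 1) :
    ∃ B : ℝ, ∀ᶠ s in nhdsWithin (1 : ℝ) (Set.Ioi 1),
      ‖∑ C : ClassGroup (𝓞 K), wclassZeta φ C s‖ ≤ B := by
  have hm : m.Prime := Fact.out
  have hPne : P ≠ ⊥ := fun h => hP0 (by simp [h, MulChar.map_zero])
  have hmP : (m : 𝓞 K) ∉ P := fun h => by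
    obtain ⟨k, hk, hN⟩ := absNorm_eq_pow_of_natCast_mem hm hP h
    apply hP0
    rw [hN, Nat.cast_pow, ZMod.natCast_self, zero_pow hk.ne']
    exact MulChar.map_zero φ
  have := hP.isMaximal hPne
  obtain ⟨v, u, hu, huv⟩ := Ideal.IsMaximal.exists_inv (I := P) inferInstance hmP
  choose J hJC hJφ using fun C : ClassGroup (𝓞 K) => exists_coprime_rep hm φ C⁻¹
  let P' : (Ideal (𝓞 K))⁰ := ⟨P, mem_nonZeroDivisors_iff_ne_zero.mpr hPne⟩
  have hJP : ∀ C, φ (Ideal.absNorm ((J C * P' : (Ideal (𝓞 K))⁰) : Ideal (𝓞 K)) : ZMod m) ≠ 0 :=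
    fun C => by
      rw [Submonoid.coe_mul, map_mul, Nat.cast_mul, map_mul]
      exact mul_ne_zero (hJφ C) hP0
  choose B₁ hB₁ using fun C => exists_wclassZeta_sub_le φ heven (J C) (hJφ C)
  choose B₂ hB₂ using fun C => exists_wclassZeta_sub_le φ heven (J C * P') (hJP C)
  set c : ℂ := φ (Ideal.absNorm P : ZMod m)
  set κ : ℝ := classConst K * (m : ℝ) ^ finrank ℚ K
  have hκ : 0 < κ := mul_pos (classConst_pos K) (pow_pos (by exact_mod_cast hm.pos) _)
  set M : ℂ := ∑ C, mainCoeff φ (J C : Ideal (𝓞 K))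
  have hmain : ∀ C, mainCoeff φ ((J C * P' : (Ideal (𝓞 K))⁰) : Ideal (𝓞 K)) =
      c⁻¹ * mainCoeff φ (J C : Ideal (𝓞 K)) := fun C => by
    rw [Submonoid.coe_mul, mainCoeff, mainCoeff, map_mul, Nat.cast_mul, map_mul,
      residueSum_mul φ heven _ P (v := v) hu (by linear_combination huv), mul_inv_rev, mul_assoc]
  refine ⟨((∑ C, (B₁ C + B₂ C)) / ‖1 - c⁻¹‖ + ∑ C, B₁ C) / κ, ?_⟩
  filter_upwards [Filter.eventually_all.2 hB₁, Filter.eventually_all.2 hB₂] with s h₁ h₂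
  set Z := ∑ C : ClassGroup (𝓞 K), wclassZeta φ C s
  set I : ℝ := ∫ x, coneFunCut K s x
  have e₁ : ‖(κ : ℂ) * Z - M * (I : ℂ)‖ ≤ ∑ C, B₁ C := by
    rw [Finset.mul_sum, Finset.sum_mul, ← Finset.sum_sub_distrib]
    refine (norm_sum_le _ _).trans (Finset.sum_le_sum fun C _ => ?_)
    have h := h₁ C
    rwa [hJC, inv_inv] at h
  have e₂ : ‖(κ : ℂ) * Z - c⁻¹ * M * (I : ℂ)‖ ≤ ∑ C, B₂ C := by
    have hperm : Z = ∑ C, wclassZeta φ (C * (ClassGroup.mk0 P')⁻¹) s :=
      (Equiv.sum_comp (Equiv.mulRight (ClassGroup.mk0 P')⁻¹) fun C => wclassZeta φ C s).symm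
    rw [hperm, Finset.mul_sum, Finset.mul_sum, Finset.sum_mul, ← Finset.sum_sub_distrib]
    refine (norm_sum_le _ _).trans (Finset.sum_le_sum fun C _ => ?_)
    have h := h₂ C
    rwa [hmain, map_mul, hJC, mul_inv, inv_inv] at h
  have hc : 0 < ‖1 - c⁻¹‖ := norm_pos_iff.2 (sub_ne_zero.2 fun h => hP1 (inv_eq_one.1 h.symm))
  have e₃ : ‖M * (I : ℂ)‖ ≤ (∑ C, (B₁ C + B₂ C)) / ‖1 - c⁻¹‖ := by
    rw [le_div_iff₀ hc, mul_comm, ← norm_mul, Finset.sum_add_distrib,
      show (1 - c⁻¹) * (M * (I : ℂ)) =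
        ((κ : ℂ) * Z - c⁻¹ * M * (I : ℂ)) - ((κ : ℂ) * Z - M * (I : ℂ)) by ring]
    exact (norm_sub_le _ _).trans (by linarith)
  rw [le_div_iff₀ hκ, ← abs_of_pos hκ, ← Real.norm_eq_abs, ← Complex.norm_real, ← norm_mul,
    mul_comm Z]
  calc ‖(κ : ℂ) * Z‖ = ‖((κ : ℂ) * Z - M * (I : ℂ)) + M * (I : ℂ)‖ := by rw [sub_add_cancel]
    _ ≤ _ := (norm_add_le _ _).trans (by linarith)

end Fermat.Agent.DeligneSerre.Cheb
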